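import Fermat.Agent.Corollaries.RayN.WeightN
import Fermat.Agent.Corollaries.Ray.ThetaW

/-!
# Hecke's functional equation for narrow ray class characters: statements of the pieces

`ψ` a primitive narrow ray class character modulo `𝔪` of infinity type `S`:
`Λ(s, ψ) = (|d| N𝔪)^{s/2} Γ_ℝ(s)^{r₁-|S|} Γ_ℝ(s+1)^{|S|} Γ_ℂ(s)^{r₂} L(s, ψ)` is entire and
`Λ(s, ψ) = W(ψ) · conj Λ(1 - conj s, ψ)`, `|W(ψ)| = 1`.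
-/

set_option autoImplicit false

noncomputable section

namespace Fermat.Agent.Cor.RayF

open NumberField NumberField.InfinitePlace NumberField.Units
open Fermat.Agent.Classic.Zeta Fermat.Agent.Cor.Ray Fermat.Agent.Cor.RayN
open scoped nonZeroDivisors Classical ComplexConjugate

universe u

variable {K : Type u} [Field K] [NumberField K]

/-- **Primitive characters**: `𝔪` is the exact finite modulus: for every proper divisor `𝔫` of `𝔪`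
there is a totally positive `a ≡ 1 mod 𝔫`, prime to `𝔪`, with `ψ((a)) ≠ 1`. -/
def IsPrimC (𝔪 : Ideal (𝓞 K)) (ψ : (Ideal (𝓞 K))⁰ →* ℂ) : Prop :=
  ∀ 𝔫 : Ideal (𝓞 K), 𝔪 ≤ 𝔫 → 𝔫 ≠ 𝔪 → ∃ (a : 𝓞 K) (ha : a ≠ 0),
    IsCoprime (Ideal.span {a}) 𝔪 ∧ a - 1 ∈ 𝔫 ∧ (∀ w : RP K, 0 < em w (a : K)) ∧ ψ (sp a ha) ≠ 1

/-- the Gauss sum of `ψ` on the ideal `J`, `R` representatives of `J / J𝔪` -/
def gsJ (S : Finset (RP K)) (𝔪 : Ideal (𝓞 K)) (ψ : (Ideal (𝓞 K))⁰ →* ℂ) (J : Ideal (𝓞 K))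
    (R : Finset K) (y : K) : ℂ := ∑ r ∈ R, wN S 𝔪 ψ J r * ch y r

/-- the data: a narrow ray class character of infinity type `S` -/
structure IsData (S : Finset (RP K)) (𝔪 : Ideal (𝓞 K)) (ψ : (Ideal (𝓞 K))⁰ →* ℂ) : Prop where
  hm : 𝔪 ≠ ⊥
  hψ : NRayChar 𝔪 ψ
  hS : HasS 𝔪 ψ S

/-- `R` represents `J / J𝔪` -/
abbrev RepsJ (𝔪 J : Ideal (𝓞 K)) (R : Finset K) : Prop :=
  IsReps (J : FractionalIdeal (𝓞 K)⁰ K) ((J * 𝔪 : Ideal (𝓞 K)) : FractionalIdeal (𝓞 K)⁰ K) R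

/-- `(y) = 𝔞 (J𝔪𝔡)⁻¹` -/
abbrev GenJ (𝔪 J : Ideal (𝓞 K)) (y : K) (𝔞 : (Ideal (𝓞 K))⁰) : Prop :=
  FractionalIdeal.spanSingleton (𝓞 K)⁰ y = ((𝔞 : Ideal (𝓞 K)) : FractionalIdeal (𝓞 K)⁰ K) *
    dualF ((J * 𝔪 : Ideal (𝓞 K)) : FractionalIdeal (𝓞 K)⁰ K)

/-- (P1a) GaussA.lean: multiplication by integers prime to `𝔪` -/
def GaussMul (K : Type u) [Field K] [NumberField K] : Prop :=
  ∀ (S : Finset (RP K)) (𝔪 : Ideal (𝓞 K)) (ψ : (Ideal (𝓞 K))⁰ →* ℂ), IsData S 𝔪 ψ →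
    ∀ J : (Ideal (𝓞 K))⁰, IsCoprime (J : Ideal (𝓞 K)) 𝔪 → ∀ R : Finset K, RepsJ 𝔪 J R →
      ∀ y ∈ dualF (((J : Ideal (𝓞 K)) * 𝔪 : Ideal (𝓞 K)) : FractionalIdeal (𝓞 K)⁰ K),
        ∀ a : 𝓞 K, a ≠ 0 → IsCoprime (Ideal.span {a}) 𝔪 →
          elN S 𝔪 ψ a * gsJ S 𝔪 ψ J R ((a : K) * y) = gsJ S 𝔪 ψ J R y

/-- (P1a) GaussA.lean: passage to a smaller ideal -/
def GaussSub (K : Type u) [Field K] [NumberField K] : Prop :=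
  ∀ (S : Finset (RP K)) (𝔪 : Ideal (𝓞 K)) (ψ : (Ideal (𝓞 K))⁰ →* ℂ), IsData S 𝔪 ψ →
    ∀ J J' : (Ideal (𝓞 K))⁰, IsCoprime (J : Ideal (𝓞 K)) 𝔪 → IsCoprime (J' : Ideal (𝓞 K)) 𝔪 →
      ∀ R R' : Finset K, RepsJ 𝔪 J R → RepsJ 𝔪 (J * J' : Ideal (𝓞 K)) R' →
        ∀ y ∈ dualF (((J : Ideal (𝓞 K)) * 𝔪 : Ideal (𝓞 K)) : FractionalIdeal (𝓞 K)⁰ K),
          gsJ S 𝔪 ψ (J * J' : Ideal (𝓞 K)) R' y = gsJ S 𝔪 ψ J R y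

/-- (P1c) GaussC.lean: the Gauss sum of a primitive character vanishes at `y` if `𝔞` is not prime
to `𝔪`. -/
def GaussZero (K : Type u) [Field K] [NumberField K] : Prop :=
  ∀ (S : Finset (RP K)) (𝔪 : Ideal (𝓞 K)) (ψ : (Ideal (𝓞 K))⁰ →* ℂ), IsData S 𝔪 ψ → IsPrimC 𝔪 ψ →
    ∀ J : (Ideal (𝓞 K))⁰, IsCoprime (J : Ideal (𝓞 K)) 𝔪 → ∀ R : Finset K, RepsJ 𝔪 J R →
      ∀ (y : K) (𝔞 : (Ideal (𝓞 K))⁰), GenJ 𝔪 J y 𝔞 → ¬ IsCoprime (𝔞 : Ideal (𝓞 K)) 𝔪 →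
        gsJ S 𝔪 ψ J R y = 0

/-- (P1b) GaussB.lean: **the Gauss sums of a primitive character are those of one constant.** -/
def GaussStmt (K : Type u) [Field K] [NumberField K] : Prop :=
  ∀ (S : Finset (RP K)) (𝔪 : Ideal (𝓞 K)) (ψ : (Ideal (𝓞 K))⁰ →* ℂ), IsData S 𝔪 ψ → IsPrimC 𝔪 ψ →
    ∃ τ : ℂ, ∀ J : (Ideal (𝓞 K))⁰, IsCoprime (J : Ideal (𝓞 K)) 𝔪 → ∀ R : Finset K, RepsJ 𝔪 J R →
      ∀ (y : K) (𝔞 : (Ideal (𝓞 K))⁰), GenJ 𝔪 J y 𝔞 →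
        gsJ S 𝔪 ψ J R y = τ * ψ J * conj (ψ 𝔞) * (sg S y : ℂ)

/-- (P2) FE.lean: the functional equation of the weighted zeta functions, `S` arbitrary -/
def FEStmt (K : Type u) [Field K] [NumberField K] : Prop :=
  ∀ (S : Finset (RP K)) (𝔟 𝔠 : FractionalIdeal (𝓞 K)⁰ K) (φ φ' : K → ℂ), IsWtS S 𝔟 𝔠 φ →
    IsWtS S (dualF 𝔠) (dualF 𝔟) φ' → IsInvS S 𝔠 φ φ' → ∃ Z Z' : ℂ → ℂ,
      (∀ s, s ≠ 0 → s ≠ 1 → DifferentiableAt ℂ Z s) ∧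
      (∀ s, s ≠ 0 → s ≠ 1 → DifferentiableAt ℂ Z' s) ∧
      (∀ (ι : Type u) (g : ι → K), IsGen 𝔟 g → ∀ s : ℂ, 1 < s.re →
        Z s = gamS K S s * ∑' i, φ (g i) * (sg S (g i) : ℂ) *
          (((|Algebra.norm ℚ (g i)| : ℚ) : ℂ)) ^ (-s)) ∧
      (∀ (ι : Type u) (g : ι → K), IsGen (dualF 𝔠) g → ∀ s : ℂ, 1 < s.re →
        Z' s = gamS K S s * ∑' i, φ' (g i) * (sg S (g i) : ℂ) *
          (((|Algebra.norm ℚ (g i)| : ℚ) : ℂ)) ^ (-s)) ∧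
      ∀ s, s ≠ 0 → s ≠ 1 → Z s = ((√|(discr K : ℝ)| * nF 𝔠 : ℝ) : ℂ)⁻¹ * Z' (1 - s)

/-- (P3) Glue.lean: complex analysis, from the two half-planes to the functional equation -/
def GlueStmt : Prop :=
  ∀ (G L A : ℂ → ℂ) (W : ℂ) (D : ℝ), 0 < D → Differentiable ℂ L →
    (∀ s : ℂ, 0 < s.re → G s ≠ 0) → Differentiable ℂ (fun s => (G s)⁻¹) →
    (∀ s, G (conj s) = conj (G s)) →
    (∀ s, s ≠ 0 → s ≠ 1 → DifferentiableAt ℂ A s) →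
    (∀ s : ℂ, 1 < s.re → A s = (D : ℂ) ^ (s / 2) * G s * L s) →
    (∀ s : ℂ, s.re < 0 → A s = W * ((D : ℂ) ^ ((1 - s) / 2) * G (1 - s) * conj (L (conj (1 - s))))) →
    (∃ s : ℂ, 1 < s.re ∧ L s ≠ 0) →
    ‖W‖ = 1 ∧ ∃ Λ : ℂ → ℂ, Differentiable ℂ Λ ∧
      (∀ s : ℂ, 0 < s.re → Λ s = (D : ℂ) ^ (s / 2) * G s * L s) ∧
      ∀ s, Λ s = W * conj (Λ (1 - conj s))

/-- (F) Main.lean: **Hecke's functional equation** -/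
def FunEqStmt (K : Type u) [Field K] [NumberField K] : Prop :=
  ∀ (𝔪 : Ideal (𝓞 K)), 𝔪 ≠ ⊥ → ∀ ψ : (Ideal (𝓞 K))⁰ →* ℂ, NRayChar 𝔪 ψ → IsPrimC 𝔪 ψ →
    (∃ I : (Ideal (𝓞 K))⁰, IsCoprime (I : Ideal (𝓞 K)) 𝔪 ∧ ψ I ≠ 1) →
      ∃ (S : Finset (RP K)) (W : ℂ) (Λ : ℂ → ℂ), ‖W‖ = 1 ∧ Differentiable ℂ Λ ∧
        (∀ s : ℂ, 1 < s.re → Λ s =
          ((|(discr K : ℝ)| * (Ideal.absNorm 𝔪 : ℝ) : ℝ) : ℂ) ^ (s / 2) * gamS K S s * Ls ψ s) ∧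
        ∀ s, Λ s = W * conj (Λ (1 - conj s))

end Fermat.Agent.Cor.RayF
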