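import Fermat.Agent.Corollaries.RayF.Final
import Fermat.Agent.Corollaries.RayN.Conductor

/-!
# The functional equation of every Hecke `L`-function of finite order

`ψ` a non-trivial narrow ray class character modulo `𝔪`, primitive or not: `ψ` is induced by a
primitive character `ψ'` of conductor `𝔣 ∣ 𝔪`; `L(s, ψ)` and `L(s, ψ')` are entire,
`L(s, ψ) = L(s, ψ') ∏_{P ∣ 𝔪} (1 - ψ'(P) N(P)^{-s})` for all `s`, and `L(s, ψ')` satisfies Hecke's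
functional equation.
-/

set_option autoImplicit false
set_option linter.unusedSectionVars false

noncomputable section

namespace Fermat.Agent.Cor.RayF

open NumberField NumberField.InfinitePlace
open Fermat.Agent.ClassL Fermat.Agent.Classic.Zeta Fermat.Agent.Cor.Ray Fermat.Agent.Cor.RayN
open scoped nonZeroDivisors ComplexConjugate Classical

universe u

variable {K : Type u} [Field K] [NumberField K] {𝔪 : Ideal (𝓞 K)} {ψ : (Ideal (𝓞 K))⁰ →* ℂ}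

/-- entire functions which agree on a half-plane -/
theorem eq_of_halfplane {f g : ℂ → ℂ} (hf : Differentiable ℂ f) (hg : Differentiable ℂ g)
    (h : ∀ s : ℂ, 1 < s.re → f s = g s) (s : ℂ) : f s = g s := by
  have h1 : f =ᶠ[nhds (2 : ℂ)] g := by
    have hopen : IsOpen {s : ℂ | 1 < s.re} := isOpen_lt continuous_const Complex.continuous_re
    filter_upwards [hopen.mem_nhds (show (1 : ℝ) < (2 : ℂ).re by norm_num)] with z hz
    exact h z hz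
  exact congrFun (AnalyticOnNhd.eq_of_eventuallyEq (fun z _ => hf.analyticAt z)
    (fun z _ => hg.analyticAt z) h1) s

/-- **Hecke's functional equation for every non-trivial narrow ray class character.** -/
theorem functional_equation_every (hm : 𝔪 ≠ ⊥) (h : NRayChar 𝔪 ψ)
    (hq : ∃ I : (Ideal (𝓞 K))⁰, IsCoprime (I : Ideal (𝓞 K)) 𝔪 ∧ ψ I ≠ 1) :
    ∃ (𝔣 : Ideal (𝓞 K)) (ψ' : (Ideal (𝓞 K))⁰ →* ℂ) (S : Finset (RP K)) (τ : ℂ)
      (L L' Λ : ℂ → ℂ), 𝔪 ≤ 𝔣 ∧ NRayChar 𝔣 ψ' ∧ IsPrimC 𝔣 ψ' ∧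
      (∀ I : (Ideal (𝓞 K))⁰, IsCoprime (I : Ideal (𝓞 K)) 𝔪 → ψ I = ψ' I) ∧
      HasS 𝔣 ψ' S ∧ IsGauss S 𝔣 ψ' τ ∧ ‖τ‖ = √(Ideal.absNorm 𝔣 : ℝ) ∧
      Differentiable ℂ L ∧ Differentiable ℂ L' ∧ Differentiable ℂ Λ ∧
      (∀ s : ℂ, 1 < s.re → L s = Ray.Ls ψ s) ∧ (∀ s : ℂ, 1 < s.re → L' s = Ray.Ls ψ' s) ∧
      (∀ s : ℂ, 1 ≤ s.re → L' s ≠ 0) ∧
      (∀ s : ℂ, L s = L' s *
        ∏ P ∈ badPr hm, (1 - ψ' P.1 * (Ideal.absNorm (P.1 : Ideal (𝓞 K)) : ℂ) ^ (-s))) ∧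
      (∀ s : ℂ, (gamS K S s)⁻¹ * Λ s =
        ((|(discr K : ℝ)| * (Ideal.absNorm 𝔣 : ℝ) : ℝ) : ℂ) ^ (s / 2) * L' s) ∧
      ∀ s, Λ s = (-Complex.I) ^ S.card * τ / ((√(Ideal.absNorm 𝔣 : ℝ) : ℝ) : ℂ) *
        conj (Λ (1 - conj s)) := by
  obtain ⟨⟨𝔣, ψ'⟩, ⟨hle, hψ', hp, hag⟩, -⟩ := exists_unique_primitive hm h
  change 𝔪 ≤ 𝔣 at hle
  change NRayChar 𝔣 ψ' at hψ'
  change IsPrimC 𝔣 ψ' at hp
  change ∀ I : (Ideal (𝓞 K))⁰, IsCoprime (I : Ideal (𝓞 K)) 𝔪 → ψ I = ψ' I at hag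
  have hf : 𝔣 ≠ ⊥ := fun h0 => hm (le_bot_iff.mp (h0 ▸ hle))
  obtain ⟨I, hI, hI1⟩ := hq
  have hq' : ∃ I : (Ideal (𝓞 K))⁰, IsCoprime (I : Ideal (𝓞 K)) 𝔣 ∧ ψ' I ≠ 1 :=
    ⟨I, isCoprime_mono hle hI, by rwa [← hag I hI]⟩
  obtain ⟨S, τ, Λ, hS, hτ, hn, hΛ, hΛs, hfe⟩ := functional_equation hf hψ' hp hq'
  obtain ⟨L', hL', hLs, hL1⟩ := nonVanNStmt K 𝔣 hf ψ' hψ' hq'
  have hD : (((|(discr K : ℝ)| * (Ideal.absNorm 𝔣 : ℝ) : ℝ)) : ℂ) ≠ 0 := by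
    rw [Complex.ofReal_ne_zero]
    refine mul_ne_zero (abs_ne_zero.mpr (by exact_mod_cast discr_ne_zero K)) ?_
    rw [Nat.cast_ne_zero, Ne, Ideal.absNorm_eq_zero_iff]
    exact hf
  refine ⟨𝔣, ψ', S, τ, fun s => L' s *
    ∏ P ∈ badPr hm, (1 - ψ' P.1 * (Ideal.absNorm (P.1 : Ideal (𝓞 K)) : ℂ) ^ (-s)), L', Λ, hle, hψ',
    hp, hag, hS, hτ, hn, ?_, hL', hΛ, fun s hs => ?_, hLs, hL1, fun s => rfl, ?_, hfe⟩
  · refine hL'.mul (Differentiable.fun_finsetProd fun P _ => ?_)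
    refine (differentiable_const _).sub (Differentiable.const_mul ?_ _)
    exact (differentiable_id.neg).const_cpow (Or.inl (by
      exact_mod_cast (Ideal.absNorm_pos_of_nonZeroDivisors P.1).ne'))
  · beta_reduce
    rw [hLs s hs, Ls_induced hm h hψ' hag hs]
  · refine eq_of_halfplane ((differentiable_gSi S).mul hΛ)
      (((differentiable_id.div_const 2).const_cpow (Or.inl hD)).mul hL') fun s hs => ?_
    have h1 : gamS K S s ≠ 0 := gamS_ne_zero S (by linarith)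
    change (gamS K S s)⁻¹ * Λ s = _ ^ (s / 2) * L' s
    rw [hΛs s hs, hLs s hs]
    field_simp

end Fermat.Agent.Cor.RayF

end
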