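import Fermat.Agent.Corollaries.RayF.Defs
import Fermat.Agent.Corollaries.RayN.EntireS
import Fermat.Agent.Corollaries.RayN.UnfoldS
import Fermat.Agent.Corollaries.RayN.DecayS
import Fermat.Agent.Corollaries.RayN.MellinS
import Fermat.Agent.Corollaries.Ray.Hecke

/-!
# The functional equation of the weighted zeta functions with signs (RAYF (P2))
-/

set_option autoImplicit false
set_option linter.unusedSectionVars false

noncomputable section

namespace Fermat.Agent.Cor.RayF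

open NumberField NumberField.InfinitePlace NumberField.Units MeasureTheory Set
open NumberField.Units.dirichletUnitTheorem
open Fermat.Agent.Classic.Zeta Fermat.Agent.Cor.Ray Fermat.Agent.Cor.RayN
open scoped nonZeroDivisors Classical Real

universe u

variable {K : Type u} [Field K] [NumberField K]

/-- from a functional equation pair of weight `n = [K : ℚ]` to functions of `n s` -/
theorem pair_aux (P : WeakFEPair ℂ) {n : ℕ} (hn : n ≠ 0) (hk : P.k = (n : ℝ)) (c : ℂ) :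
    (∀ s : ℂ, (s ≠ 0 ∨ P.f₀ = 0) → (s ≠ 1 ∨ P.g₀ = 0) →
      DifferentiableAt ℂ (fun s => c⁻¹ * P.Λ ((n : ℂ) * s)) s) ∧
    (∀ s : ℂ, (s ≠ 0 ∨ P.g₀ = 0) → (s ≠ 1 ∨ P.f₀ = 0) →
      DifferentiableAt ℂ (fun s => c⁻¹ * P.symm.Λ ((n : ℂ) * s)) s) ∧
    ∀ s : ℂ, c⁻¹ * P.Λ ((n : ℂ) * s) = P.ε * (c⁻¹ * P.symm.Λ ((n : ℂ) * (1 - s))) := by
  have hn' : (n : ℂ) ≠ 0 := by exact_mod_cast hn
  have h0 : ∀ {s : ℂ}, s ≠ 0 → (n : ℂ) * s ≠ 0 := fun hs => mul_ne_zero hn' hs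
  have h1 : ∀ {s : ℂ}, s ≠ 1 → (n : ℂ) * s ≠ P.k := fun hs h => by
    rw [hk] at h
    apply hs
    refine mul_left_cancel₀ hn' ?_
    rw [h, mul_one]
    push_cast
    rfl
  have hd : ∀ s : ℂ, DifferentiableAt ℂ (fun s : ℂ => (n : ℂ) * s) s := fun s =>
    differentiableAt_id.const_mul _
  refine ⟨fun s hs hs' => ?_, fun s hs hs' => ?_, fun s => ?_⟩
  · exact (DifferentiableAt.comp s (P.differentiableAt_Λ (hs.imp_left h0) (hs'.imp_left h1))
      (hd s)).const_mul _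
  · exact (DifferentiableAt.comp s (P.symm.differentiableAt_Λ (hs.imp_left h0)
      (hs'.imp_left h1)) (hd s)).const_mul _
  · have h2 := P.functional_equation ((n : ℂ) * (1 - s))
    have h3 : (P.k : ℂ) - (n : ℂ) * (1 - s) = (n : ℂ) * s := by
      rw [hk]
      push_cast
      ring
    rw [h3, smul_eq_mul] at h2
    rw [h2]
    ring

/-! ### `S = ∅` -/

theorem isWt_of_empty {𝔟 𝔠 : FractionalIdeal (𝓞 K)⁰ K} {φ : K → ℂ} (h : IsWtS ∅ 𝔟 𝔠 φ) :
    IsWt 𝔟 𝔠 φ where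
  hb := h.hb
  hc := h.hc
  le := h.le
  supp := h.supp
  per := h.per
  unit v x := by
    rw [h.unit v x, sg_empty, Complex.ofReal_one, one_mul]
  bdd := h.bdd

theorem ES_empty (t : InfinitePlace K → ℝ) (x : K) : ES ∅ t x = E t x := by
  rw [ES, pS, Finset.prod_empty, Finset.prod_empty, one_mul, one_mul]

theorem ΘS_empty (φ : K → ℂ) (t : InfinitePlace K → ℝ) : ΘS ∅ φ t = Θw φ t := by
  rw [ΘS, Θw]
  exact tsum_congr fun x => by rw [ES_empty]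

theorem FS_empty (β : logSpace K → ℝ) (φ : K → ℂ) : FS ∅ β φ = Fw β φ := by
  funext x
  rw [FS, Fw]
  simp only [ΘS_empty]

theorem isInv_of_empty {𝔠 : FractionalIdeal (𝓞 K)⁰ K} {φ φ' : K → ℂ} (h : IsInvS ∅ 𝔠 φ φ') :
    IsInv 𝔠 φ φ' := fun t ht => by
  have h1 := h t ht
  rwa [ΘS_empty, ΘS_empty] at h1

theorem gamS_empty (s : ℂ) : gamS K ∅ s = gam K s := by
  rw [gamS, gam, Finset.card_empty, Nat.sub_zero, pow_zero, mul_one]

/-! ### The theorem -/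

/-- the functional equation of the weighted zeta functions, with the poles -/
theorem fe_ext (S : Finset (RP K)) (𝔟 𝔠 : FractionalIdeal (𝓞 K)⁰ K) (φ φ' : K → ℂ)
    (hφ : IsWtS S 𝔟 𝔠 φ) (hφ' : IsWtS S (dualF 𝔠) (dualF 𝔟) φ') (hI : IsInvS S 𝔠 φ φ') :
    ∃ Z Z' : ℂ → ℂ,
      (∀ s, (s ≠ 0 ∨ S.Nonempty ∨ φ 0 = 0) → (s ≠ 1 ∨ S.Nonempty ∨ φ' 0 = 0) →
        DifferentiableAt ℂ Z s) ∧
      (∀ s, (s ≠ 0 ∨ S.Nonempty ∨ φ' 0 = 0) → (s ≠ 1 ∨ S.Nonempty ∨ φ 0 = 0) →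
        DifferentiableAt ℂ Z' s) ∧
      (∀ (ι : Type u) (g : ι → K), IsGen 𝔟 g → ∀ s : ℂ, 1 < s.re →
        Z s = gamS K S s * ∑' i, φ (g i) * (sg S (g i) : ℂ) *
          (((|Algebra.norm ℚ (g i)| : ℚ) : ℂ)) ^ (-s)) ∧
      (∀ (ι : Type u) (g : ι → K), IsGen (dualF 𝔠) g → ∀ s : ℂ, 1 < s.re →
        Z' s = gamS K S s * ∑' i, φ' (g i) * (sg S (g i) : ℂ) *
          (((|Algebra.norm ℚ (g i)| : ℚ) : ℂ)) ^ (-s)) ∧
      ∀ s, Z s = ((√|(discr K : ℝ)| * nF 𝔠 : ℝ) : ℂ)⁻¹ * Z' (1 - s) := by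
  obtain ⟨β, hβ⟩ := (torusStmt (thetaStmt K)).1
  have hn : Module.finrank ℚ K ≠ 0 := Module.finrank_pos.ne'
  have hk : ∀ {s : ℂ}, 1 < s.re →
      (Module.finrank ℚ K : ℝ) < ((Module.finrank ℚ K : ℂ) * s).re := fun {s} hs => by
    have hn : (0 : ℝ) < (Module.finrank ℚ K : ℝ) := finrank_pos' K
    rw [← Complex.ofReal_natCast, Complex.re_ofReal_mul]
    nlinarith
  have hinv : ((((√|(discr K : ℝ)| * nF 𝔠)⁻¹ : ℝ) : ℂ)) =
      ((√|(discr K : ℝ)| * nF 𝔠 : ℝ) : ℂ)⁻¹ := by push_cast; rfl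
  by_cases hS : S.Nonempty
  · obtain ⟨c, hc, hM⟩ := mellinSStmt K S hS
    have hc' : (c : ℂ) ≠ 0 := by exact_mod_cast hc.ne'
    set P : WeakFEPair ℂ := feS hS hβ (torusSStmt K) (decaySStmt K) hφ hφ' hI with hP
    obtain ⟨h1, h2, h3⟩ := pair_aux P hn rfl (c : ℂ)
    refine ⟨_, _, fun s _ _ => h1 s (Or.inr rfl) (Or.inr rfl),
      fun s _ _ => h2 s (Or.inr rfl) (Or.inr rfl), ?_, ?_, fun s => ?_⟩
    · intro ι g hg s hs
      obtain ⟨-, hmel⟩ := hM β hβ 𝔟 𝔠 φ hφ ι g hg s hs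
      have h4 : mellin (fun x : ℝ => FS S β φ x - 0) ((Module.finrank ℚ K : ℂ) * s) =
        P.Λ ((Module.finrank ℚ K : ℂ) * s) := (P.hasMellin (hk hs)).2
      simp only [sub_zero] at h4
      rw [← h4, hmel]
      field_simp
    · intro ι g hg s hs
      obtain ⟨-, hmel⟩ := hM β hβ _ _ φ' hφ' ι g hg s hs
      have h4 : mellin (fun x : ℝ => FS S β φ' x - 0) ((Module.finrank ℚ K : ℂ) * s) =
        P.symm.Λ ((Module.finrank ℚ K : ℂ) * s) := (P.symm.hasMellin (hk hs)).2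
      simp only [sub_zero] at h4
      rw [← h4, hmel]
      field_simp
    · rw [← hinv]
      exact h3 s
  · rw [Finset.not_nonempty_iff_eq_empty] at hS
    subst hS
    obtain ⟨c, hc, hM⟩ := mellinWStmt (unfoldWStmt K)
    have hc' : (c : ℂ) ≠ 0 := by exact_mod_cast hc.ne'
    set P : WeakFEPair ℂ := feW hβ (torusWStmt K) (decayWStmt K) (isWt_of_empty hφ)
      (isWt_of_empty hφ') (isInv_of_empty hI) with hP
    obtain ⟨h1, h2, h3⟩ := pair_aux P hn rfl (c : ℂ)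
    have hf : ∀ {p : Prop}, (p ∨ (∅ : Finset (RP K)).Nonempty ∨ φ 0 = 0) → p ∨ P.f₀ = 0 := by
      rintro p (h | h | h)
      · exact Or.inl h
      · exact absurd h Finset.not_nonempty_empty
      · right
        change φ 0 * _ = 0
        rw [h, zero_mul]
    have hg' : ∀ {p : Prop}, (p ∨ (∅ : Finset (RP K)).Nonempty ∨ φ' 0 = 0) → p ∨ P.g₀ = 0 := by
      rintro p (h | h | h)
      · exact Or.inl h
      · exact absurd h Finset.not_nonempty_empty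
      · right
        change φ' 0 * _ = 0
        rw [h, zero_mul]
    have hsg : ∀ (ψ : K → ℂ) (x : K) (z : ℂ), ψ x * (sg ∅ x : ℂ) * z = ψ x * z := fun ψ x z => by
      rw [sg_empty, Complex.ofReal_one, mul_one]
    refine ⟨_, _, fun s hs hs' => h1 s (hf hs) (hg' hs'),
      fun s hs hs' => h2 s (hg' hs) (hf hs'), ?_, ?_, fun s => ?_⟩
    · intro ι g hg s hs
      obtain ⟨-, hmel⟩ := hM β hβ 𝔟 𝔠 φ (isWt_of_empty hφ) ι g hg s hs
      have h4 : mellin (fun x : ℝ => Fw β φ x - φ 0 * (B β : ℂ)) ((Module.finrank ℚ K : ℂ) * s) =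
        P.Λ ((Module.finrank ℚ K : ℂ) * s) := (P.hasMellin (hk hs)).2
      simp only [hsg, gamS_empty]
      rw [← h4, hmel]
      field_simp
    · intro ι g hg s hs
      obtain ⟨-, hmel⟩ := hM β hβ _ _ φ' (isWt_of_empty hφ') ι g hg s hs
      have h4 : mellin (fun x : ℝ => Fw β φ' x - φ' 0 * (B β : ℂ))
          ((Module.finrank ℚ K : ℂ) * s) =
        P.symm.Λ ((Module.finrank ℚ K : ℂ) * s) := (P.symm.hasMellin (hk hs)).2
      simp only [hsg, gamS_empty]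
      rw [← h4, hmel]
      field_simp
    · rw [← hinv]
      exact h3 s

/-- **(P2)** -/
theorem feStmt (K : Type u) [Field K] [NumberField K] : FEStmt K := by
  intro S 𝔟 𝔠 φ φ' hφ hφ' hI
  obtain ⟨Z, Z', h1, h2, h3, h4, h5⟩ := fe_ext S 𝔟 𝔠 φ φ' hφ hφ' hI
  exact ⟨Z, Z', fun s hs hs' => h1 s (Or.inl hs) (Or.inl hs'),
    fun s hs hs' => h2 s (Or.inl hs) (Or.inl hs'), h3, h4, fun s _ _ => h5 s⟩

end Fermat.Agent.Cor.RayF

end
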