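import Fermat.Agent.Corollaries.RayF.Defs
import Fermat.Agent.Corollaries.Ray.Entire

/-!
# Gauss sums of primitive ray class characters
-/

set_option autoImplicit false
set_option linter.unusedSectionVars false

noncomputable section

namespace Fermat.Agent.Cor.RayF

open NumberField NumberField.InfinitePlace
open Fermat.Agent.Classic.Zeta Fermat.Agent.Cor.Ray Fermat.Agent.Cor.RayN
open scoped nonZeroDivisors Classical ComplexConjugate

universe u

variable {K : Type u} [Field K] [NumberField K] {m : Ideal (𝓞 K)} {ψ : (Ideal (𝓞 K))⁰ →* ℂ}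
  {S : Finset (RP K)}

/-! ### The character on elements -/

theorem elN_top (hS : HasS m ψ S) (hm : m = ⊤) (x : 𝓞 K) : elN S m ψ x = 1 := by
  by_cases hx : x = 0
  · rw [elN, dif_pos hx, if_pos hm]
  · rw [elN_of_ne hx, hS x hx (by rw [hm]; trivial), coe_sg_sq S hx]

theorem elN_mulF (hS : HasS m ψ S) {a : 𝓞 K} (ha : a ≠ 0) (x : 𝓞 K) :
    elN S m ψ (a * x) = elN S m ψ a * elN S m ψ x := by
  by_cases hx : x = 0
  · subst hx
    rw [mul_zero]
    by_cases hm : m = ⊤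
    · rw [elN_top hS hm, elN_top hS hm, one_mul]
    · rw [elN, dif_pos rfl, if_neg hm, mul_zero]
  · rw [elN_of_ne ha, elN_of_ne hx, elN_of_ne (mul_ne_zero ha hx), coe_sg_mul, sp_mul ha hx,
      map_mul]
    ring

theorem elN_one (hS : HasS m ψ S) : elN S m ψ 1 = 1 := by
  rw [elN_of_ne one_ne_zero, hS 1 one_ne_zero (by rw [sub_self]; exact m.zero_mem),
    coe_sg_sq S one_ne_zero]

theorem exists_invF {a : 𝓞 K} (ha : IsCoprime (Ideal.span {a}) m) :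
    ∃ b : 𝓞 K, b ≠ 0 ∧ b * a - 1 ∈ m := by
  by_cases hm : m = ⊤
  · exact ⟨1, one_ne_zero, by rw [hm]; trivial⟩
  · obtain ⟨b, hb⟩ := isCoprime_span_iff.mp ha
    refine ⟨b, ?_, hb⟩
    rintro rfl
    apply hm
    rw [Ideal.eq_top_iff_one]
    have := m.neg_mem hb
    simpa using this

theorem elN_mul_inv (h : NRayChar m ψ) (hS : HasS m ψ S) {a b : 𝓞 K} (hb0 : b ≠ 0)
    (hb : b * a - 1 ∈ m) : elN S m ψ b * elN S m ψ a = 1 := by
  rw [← elN_mulF hS hb0, ← elN_one hS]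
  have h1 := elN_add h hS 1 hb
  rwa [add_sub_cancel] at h1

theorem norm_elN_eq (h : NRayChar m ψ) (hS : HasS m ψ S) {a : 𝓞 K}
    (ha : IsCoprime (Ideal.span {a}) m) : ‖elN S m ψ a‖ = 1 := by
  obtain ⟨b, hb0, hb⟩ := exists_invF ha
  have h1 := congrArg norm (elN_mul_inv h hS hb0 hb)
  rw [norm_mul, norm_one] at h1
  have h2 := norm_elN_le (S := S) h a
  have h3 := norm_elN_le (S := S) h b
  nlinarith [norm_nonneg (elN S m ψ a), norm_nonneg (elN S m ψ b)]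

theorem elN_eq_zero (h : NRayChar m ψ) {a : 𝓞 K} (ha : ¬ IsCoprime (Ideal.span {a}) m) :
    elN S m ψ a = 0 := by
  by_cases h0 : a = 0
  · have hm : m ≠ ⊤ := by
      rintro rfl
      exact ha (Ideal.isCoprime_iff_sup_eq.mpr (sup_top_eq _))
    rw [elN, dif_pos h0, if_neg hm]
  · have h1 : ψ (sp a h0) = 0 := h.eq_zero _ ha
    rw [elN_of_ne h0, h1, zero_mul]

/-- the values of `ψ` have norm one -/
theorem norm_psi (hm : m ≠ ⊥) (h : NRayChar m ψ) (hS : HasS m ψ S) {J : (Ideal (𝓞 K))⁰}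
    (hJ : IsCoprime (J : Ideal (𝓞 K)) m) : ‖ψ J‖ = 1 := by
  obtain ⟨J', a, ha, hJ', hc, hIJ⟩ := exists_mul_eq_span hm hJ
  have h1 := norm_elN_eq (S := S) h hS hc
  have h2 : sp a ha = J * J' := Subtype.ext hIJ.symm
  rw [elN_of_ne ha, norm_mul, norm_coe_sg S ha, mul_one, h2, map_mul, norm_mul] at h1
  have h3 := h.norm_le J
  have h4 := h.norm_le J'
  nlinarith [norm_nonneg (ψ J), norm_nonneg (ψ J')]

theorem psi_mul_conj (hm : m ≠ ⊥) (h : NRayChar m ψ) (hS : HasS m ψ S) {J : (Ideal (𝓞 K))⁰}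
    (hJ : IsCoprime (J : Ideal (𝓞 K)) m) : ψ J * conj (ψ J) = 1 := by
  rw [Complex.mul_conj, Complex.normSq_eq_norm_sq, norm_psi hm h hS hJ]
  simp

/-! ### Additive characters -/

omit [NumberField K] in
theorem ch_smul [NumberField K] (a z r : K) : ch (a * z) r = ch z (a * r) := by
  rw [ch, ch]
  congr 5
  ring

theorem ch_zero_right (z : K) : ch z 0 = 1 := by
  rw [ch, mul_zero, map_zero]
  simp

theorem conj_ch (z r : K) : conj (ch z r) = ch z (-r) := by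
  rw [ch, ch, ← Complex.exp_conj]
  congr 1
  have h1 : z * -r = -(z * r) := by ring
  rw [map_mul, map_mul, map_mul, Complex.conj_I, Complex.conj_ofReal, Complex.conj_ofReal,
    map_ofNat, h1, map_neg]
  push_cast
  ring

/-! ### Ideals -/

theorem mem_coe_of_mem {J : Ideal (𝓞 K)} {a : 𝓞 K} (ha : a ∈ J) :
    (a : K) ∈ (J : FractionalIdeal (𝓞 K)⁰ K) := mem_coeIdeal_iff'.mpr ⟨a, ha, rfl⟩

theorem one_ne_zeroF : (1 : FractionalIdeal (𝓞 K)⁰ K) ≠ 0 := one_ne_zero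

theorem self_mul_dualF (hm : m ≠ ⊥) : (m : FractionalIdeal (𝓞 K)⁰ K) *
    dualF (m : FractionalIdeal (𝓞 K)⁰ K) = dualF 1 :=
  FractionalIdeal.self_mul_dual ℤ ℚ (FractionalIdeal.coeIdeal_ne_zero.mpr hm)

theorem mem_of_mem_mul {A : Ideal (𝓞 K)} {I : FractionalIdeal (𝓞 K)⁰ K} {z : K}
    (hz : z ∈ (A : FractionalIdeal (𝓞 K)⁰ K) * I) : z ∈ I := by
  have h1 : (A : FractionalIdeal (𝓞 K)⁰ K) * I ≤ I := by
    calc (A : FractionalIdeal (𝓞 K)⁰ K) * I ≤ 1 * I :=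
          mul_le_mul_left FractionalIdeal.coeIdeal_le_one _
      _ = I := one_mul _
  exact h1 hz

/-! ### Sums over `𝓞 / m` -/

section Sums

variable [Fintype (𝓞 K ⧸ m)]

theorem per_of_sub {f : 𝓞 K → ℂ} (hf : ∀ x, ∀ r ∈ m, f (x + r) = f x) {x y : 𝓞 K}
    (hxy : x - y ∈ m) : f x = f y := by
  have := hf y _ hxy
  rwa [add_sub_cancel] at this

theorem sum_mulF {f : 𝓞 K → ℂ} (hf : ∀ x, ∀ r ∈ m, f (x + r) = f x) {a : 𝓞 K}
    (ha : IsCoprime (Ideal.span {a}) m) :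
    ∑ q : 𝓞 K ⧸ m, f q.out = ∑ q : 𝓞 K ⧸ m, f (a * q.out) := by
  obtain ⟨b, hb⟩ := isCoprime_span_iff.mp ha
  have hunit : IsUnit (Ideal.Quotient.mk m a) := by
    rw [isUnit_iff_exists_inv']
    refine ⟨Ideal.Quotient.mk m b, ?_⟩
    rw [← map_mul, ← map_one (Ideal.Quotient.mk m), Ideal.Quotient.mk_eq_mk_iff_sub_mem]
    exact hb
  rw [← Equiv.sum_comp (Units.mulLeft hunit.unit)]
  refine Finset.sum_congr rfl fun q _ => per_of_sub hf ?_
  rw [← Ideal.Quotient.mk_eq_mk_iff_sub_mem, mk_out, map_mul, mk_out]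
  rfl

theorem sum_addF {f : 𝓞 K → ℂ} (hf : ∀ x, ∀ r ∈ m, f (x + r) = f x) (a : 𝓞 K) :
    ∑ q : 𝓞 K ⧸ m, f q.out = ∑ q : 𝓞 K ⧸ m, f (q.out + a) := by
  rw [← Equiv.sum_comp (Equiv.addRight (Ideal.Quotient.mk m a))]
  refine Finset.sum_congr rfl fun q _ => per_of_sub hf ?_
  rw [← Ideal.Quotient.mk_eq_mk_iff_sub_mem, mk_out, map_add, mk_out]
  rfl

/-- the Gauss sum with the additive character `e(Tr (z r))` -/
def TT (S : Finset (RP K)) (m : Ideal (𝓞 K)) [Fintype (𝓞 K ⧸ m)] (ψ : (Ideal (𝓞 K))⁰ →* ℂ)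
    (z : K) : ℂ := ∑ q : 𝓞 K ⧸ m, elN S m ψ q.out * ch z ((q.out : 𝓞 K) : K)

theorem ch_per (hm : m ≠ ⊥) {z : K} (hz : z ∈ dualF (m : FractionalIdeal (𝓞 K)⁰ K)) (x : 𝓞 K)
    {r : 𝓞 K} (hr : r ∈ m) : ch z ((x + r : 𝓞 K) : K) = ch z (x : K) := by
  have h1 : ((x + r : 𝓞 K) : K) = (x : K) + (r : K) := map_add (algebraMap (𝓞 K) K) x r
  rw [h1, ch_add_right, ch_eq_one (FractionalIdeal.coeIdeal_ne_zero.mpr hm) hz (mem_coe_of_mem hr),
    mul_one]

theorem TT_eq_mul (hm : m ≠ ⊥) (h : NRayChar m ψ) (hS : HasS m ψ S) {z : K}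
    (hz : z ∈ dualF (m : FractionalIdeal (𝓞 K)⁰ K)) {a : 𝓞 K} (ha0 : a ≠ 0)
    (ha : IsCoprime (Ideal.span {a}) m) : TT S m ψ z = elN S m ψ a * TT S m ψ (a * z) := by
  rw [TT, sum_mulF (f := fun x => elN S m ψ x * ch z (x : K)) (fun x r hr => by
    rw [elN_add h hS x hr, ch_per hm hz x hr]) ha, TT, Finset.mul_sum]
  refine Finset.sum_congr rfl fun q _ => ?_
  have h1 : ((a * q.out : 𝓞 K) : K) = (a : K) * ((q.out : 𝓞 K) : K) :=
    map_mul (algebraMap (𝓞 K) K) _ _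
  rw [elN_mulF hS ha0, ch_smul, h1]
  ring

/-- the Gauss sum vanishes at the non-primitive additive characters -/
theorem TT_eq_zero (hm : m ≠ ⊥) (h : NRayChar m ψ) (hS : HasS m ψ S) (hp : IsPrimC m ψ) {z : K}
    {A : Ideal (𝓞 K)} (hA : ¬ IsCoprime A m)
    (hz : z ∈ (A : FractionalIdeal (𝓞 K)⁰ K) * dualF (m : FractionalIdeal (𝓞 K)⁰ K)) :
    TT S m ψ z = 0 := by
  have hz' := mem_of_mem_mul hz
  obtain ⟨n, hn⟩ : A ⊔ m ∣ m := Ideal.dvd_iff_le.mpr le_sup_right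
  have hlt : m < n := by
    refine lt_of_le_of_ne (hn.le.trans Ideal.mul_le_right) fun hmn => hA ?_
    rw [Ideal.isCoprime_iff_sup_eq]
    rw [← hmn] at hn
    have h1 : (A ⊔ m) * m = ⊤ * m := by rw [← hn, Ideal.top_mul]
    exact mul_right_cancel₀ hm h1
  obtain ⟨a, ha, hac, han, hpos, hψ⟩ := hp n hlt.le hlt.ne'
  have hel : elN S m ψ a ≠ 1 := by
    rw [elN_of_ne ha, sg_of_pos S hpos, Complex.ofReal_one, mul_one]
    exact hψ
  have hmem : ((a - 1 : 𝓞 K) : K) * z ∈ dualF (1 : FractionalIdeal (𝓞 K)⁰ K) := by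
    have h1 := FractionalIdeal.mul_mem_mul (mem_coe_of_mem (K := K) han) hz
    have h2 : (n : FractionalIdeal (𝓞 K)⁰ K) * ((A : FractionalIdeal (𝓞 K)⁰ K) *
        dualF (m : FractionalIdeal (𝓞 K)⁰ K)) ≤ dualF 1 := by
      rw [← mul_assoc, ← self_mul_dualF hm, ← FractionalIdeal.coeIdeal_mul]
      refine mul_le_mul_left ((FractionalIdeal.coeIdeal_le_coeIdeal K).mpr ?_) _
      calc n * A ≤ n * (A ⊔ m) := Ideal.mul_mono_right le_sup_left
        _ = m := by rw [mul_comm, ← hn]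
    exact h2 h1
  have hT : TT S m ψ (a * z) = TT S m ψ z := by
    rw [TT, TT]
    refine Finset.sum_congr rfl fun q _ => ?_
    have h1 : (a : K) * z = z + ((a - 1 : 𝓞 K) : K) * z := by
      have : ((a - 1 : 𝓞 K) : K) = (a : K) - 1 := by
        rw [← map_one (algebraMap (𝓞 K) K), ← map_sub]
      rw [this]
      ring
    have h2 : ((q.out : 𝓞 K) : K) ∈ (1 : FractionalIdeal (𝓞 K)⁰ K) :=
      (FractionalIdeal.mem_one_iff _).mpr ⟨_, rfl⟩
    rw [h1, ch_add_left, ch_eq_one one_ne_zeroF hmem h2, mul_one]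
  have h3 := TT_eq_mul hm h hS hz' ha hac
  rw [hT] at h3
  have h4 : (1 - elN S m ψ a) * TT S m ψ z = 0 := by linear_combination h3
  rcases mul_eq_zero.mp h4 with h5 | h5
  · exact absurd (sub_eq_zero.mp h5).symm hel
  · exact h5

/-- the Gauss sum at two primitive additive characters -/
theorem TT_indep (hm : m ≠ ⊥) (h : NRayChar m ψ) (hS : HasS m ψ S) {z₁ z₂ : K}
    {A₁ A₂ : (Ideal (𝓞 K))⁰} (hA₁ : IsCoprime (A₁ : Ideal (𝓞 K)) m)
    (hA₂ : IsCoprime (A₂ : Ideal (𝓞 K)) m) (hz₁ : z₁ ≠ 0) (hz₂ : z₂ ≠ 0)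
    (h₁ : FractionalIdeal.spanSingleton (𝓞 K)⁰ z₁ =
      ((A₁ : Ideal (𝓞 K)) : FractionalIdeal (𝓞 K)⁰ K) * dualF (m : FractionalIdeal (𝓞 K)⁰ K))
    (h₂ : FractionalIdeal.spanSingleton (𝓞 K)⁰ z₂ =
      ((A₂ : Ideal (𝓞 K)) : FractionalIdeal (𝓞 K)⁰ K) * dualF (m : FractionalIdeal (𝓞 K)⁰ K)) :
    TT S m ψ z₁ * ψ A₁ * (sg S z₁ : ℂ) = TT S m ψ z₂ * ψ A₂ * (sg S z₂ : ℂ) := by
  obtain ⟨J', b, hb, hJ', hbc, hIJ⟩ := exists_mul_eq_span hm hA₁
  have hz₁' : z₁ ∈ dualF (m : FractionalIdeal (𝓞 K)⁰ K) :=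
    mem_of_mem_mul (h₁ ▸ FractionalIdeal.mem_spanSingleton_self _ z₁)
  have hz₂' : z₂ ∈ dualF (m : FractionalIdeal (𝓞 K)⁰ K) :=
    mem_of_mem_mul (h₂ ▸ FractionalIdeal.mem_spanSingleton_self _ z₂)
  have h3 : FractionalIdeal.spanSingleton (𝓞 K)⁰ ((b : K) * z₂) =
      FractionalIdeal.spanSingleton (𝓞 K)⁰ z₁ *
        (((J' : Ideal (𝓞 K)) * (A₂ : Ideal (𝓞 K)) : Ideal (𝓞 K)) :
          FractionalIdeal (𝓞 K)⁰ K) := by
    rw [← FractionalIdeal.spanSingleton_mul_spanSingleton, h₂, h₁,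
      ← FractionalIdeal.coeIdeal_span_singleton, ← hIJ, FractionalIdeal.coeIdeal_mul,
      FractionalIdeal.coeIdeal_mul]
    ring
  have h4 : (b : K) * z₂ ∈ FractionalIdeal.spanSingleton (𝓞 K)⁰ z₁ *
        (((J' : Ideal (𝓞 K)) * (A₂ : Ideal (𝓞 K)) : Ideal (𝓞 K)) :
          FractionalIdeal (𝓞 K)⁰ K) := by
    rw [← h3]
    exact FractionalIdeal.mem_spanSingleton_self _ _
  obtain ⟨a', ha', hab⟩ := FractionalIdeal.mem_singleton_mul.mp h4
  obtain ⟨a, haJ, rfl⟩ := mem_coeIdeal_iff'.mp ha'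
  have ha : a ≠ 0 := by
    rintro rfl
    have h5 : ((0 : 𝓞 K) : K) = 0 := map_zero (algebraMap (𝓞 K) K)
    rw [h5, mul_zero] at hab
    exact mul_ne_zero (coe_ne_zeroF hb) hz₂ hab
  have h6 : Ideal.span {a} = (J' : Ideal (𝓞 K)) * (A₂ : Ideal (𝓞 K)) := by
    rw [hab, ← FractionalIdeal.spanSingleton_mul_spanSingleton] at h3
    have h7 := mul_left_cancel₀ (FractionalIdeal.spanSingleton_ne_zero_iff.mpr hz₁) h3
    rwa [← FractionalIdeal.coeIdeal_span_singleton, FractionalIdeal.coeIdeal_inj] at h7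
  have hac : IsCoprime (Ideal.span {a}) m := by
    rw [h6]
    exact IsCoprime.mul_left hJ' hA₂
  have e1 : ψ (sp a ha) = ψ J' * ψ A₂ := by
    rw [← map_mul]
    exact congrArg ψ (Subtype.ext h6)
  have e2 : ψ (sp b hb) = ψ A₁ * ψ J' := by
    rw [← map_mul]
    exact congrArg ψ (Subtype.ext hIJ.symm)
  have e3 : (sg S (b : K) : ℂ) * (sg S z₂ : ℂ) = (sg S (a : K) : ℂ) * (sg S z₁ : ℂ) := by
    rw [← Complex.ofReal_mul, ← Complex.ofReal_mul, ← sg_mul, ← sg_mul, hab, mul_comm z₁]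
  have t1 := TT_eq_mul hm h hS hz₁' ha hac
  have t2 := TT_eq_mul hm h hS hz₂' hb hbc
  rw [hab, mul_comm z₁] at t2
  rw [t1, t2, elN_of_ne ha, elN_of_ne hb, e1, e2]
  linear_combination (-(ψ J' * ψ A₂ * ψ A₁ * TT S m ψ ((a : K) * z₁))) * e3

/-! ### The absolute value -/

/-- orthogonality -/
theorem sum_ch (hm : m ≠ ⊥) {z : K} {B : (Ideal (𝓞 K))⁰} (hB : IsCoprime (B : Ideal (𝓞 K)) m)
    (hz : FractionalIdeal.spanSingleton (𝓞 K)⁰ z =
      ((B : Ideal (𝓞 K)) : FractionalIdeal (𝓞 K)⁰ K) * dualF (m : FractionalIdeal (𝓞 K)⁰ K))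
    {t : 𝓞 K} (ht : t ∉ m) : ∑ q : 𝓞 K ⧸ m, ch z ((t * q.out : 𝓞 K) : K) = 0 := by
  have hz' : z ∈ dualF (m : FractionalIdeal (𝓞 K)⁰ K) :=
    mem_of_mem_mul (hz ▸ FractionalIdeal.mem_spanSingleton_self _ z)
  have hper : ∀ x, ∀ r ∈ m, ch z ((t * (x + r) : 𝓞 K) : K) = ch z ((t * x : 𝓞 K) : K) := by
    intro x r hr
    rw [mul_add]
    exact ch_per hm hz' _ (m.mul_mem_left _ hr)
  -- a nontrivial value
  obtain ⟨a, ha⟩ : ∃ a : 𝓞 K, ch z ((t * a : 𝓞 K) : K) ≠ 1 := by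
    by_contra hcon
    push Not at hcon
    have h1 : (t : K) * z ∈ dualF (1 : FractionalIdeal (𝓞 K)⁰ K) := by
      rw [dualF, FractionalIdeal.mem_dual one_ne_zeroF]
      intro r hr
      obtain ⟨x, rfl⟩ := (FractionalIdeal.mem_one_iff _).mp hr
      have h2 := hcon x
      have h3 : ((t * x : 𝓞 K) : K) = (t : K) * (x : K) := map_mul (algebraMap (𝓞 K) K) _ _
      rw [ch, Complex.exp_eq_one_iff, h3] at h2
      obtain ⟨n, hn⟩ := h2
      refine ⟨n, ?_⟩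
      rw [Algebra.traceForm_apply]
      have h4 : ((Algebra.trace ℚ K (z * ((t : K) * (x : K))) : ℚ) : ℂ) = n := by
        have h5 : (2 * (Real.pi : ℂ) * Complex.I) ≠ 0 := Complex.two_pi_I_ne_zero
        have h6 : (2 * (Real.pi : ℂ) * Complex.I) *
            ((Algebra.trace ℚ K (z * ((t : K) * (x : K))) : ℚ) : ℂ) =
            (2 * (Real.pi : ℂ) * Complex.I) * n := by
          rw [← mul_comm (n : ℂ), ← hn]
          push_cast
          ring
        exact mul_left_cancel₀ h5 h6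
      have h7 : (t : K) * z * (x : K) = z * ((t : K) * (x : K)) := by ring
      rw [h7]
      have h8 : (Algebra.trace ℚ K (z * ((t : K) * (x : K))) : ℚ) = n := by exact_mod_cast h4
      rw [h8]
      simp
    have h2 : (((Ideal.span {t} * (B : Ideal (𝓞 K)) : Ideal (𝓞 K)) :
        FractionalIdeal (𝓞 K)⁰ K)) ≤ (m : FractionalIdeal (𝓞 K)⁰ K) := by
      have h3 : FractionalIdeal.spanSingleton (𝓞 K)⁰ ((t : K) * z) ≤ dualF 1 := by
        rwa [FractionalIdeal.spanSingleton_le_iff_mem]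
      rw [← FractionalIdeal.spanSingleton_mul_spanSingleton, hz, ← self_mul_dualF hm,
        ← FractionalIdeal.coeIdeal_span_singleton, ← mul_assoc, ← FractionalIdeal.coeIdeal_mul]
        at h3
      have h4 : dualF (m : FractionalIdeal (𝓞 K)⁰ K) ≠ 0 :=
        Ray.dualF_ne_zero (FractionalIdeal.coeIdeal_ne_zero.mpr hm)
      have h5 := mul_le_mul_left h3 (dualF (m : FractionalIdeal (𝓞 K)⁰ K))⁻¹
      rwa [mul_assoc, mul_assoc, mul_inv_cancel₀ h4, mul_one, mul_one] at h5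
    rw [FractionalIdeal.coeIdeal_le_coeIdeal] at h2
    obtain ⟨i, hi, j, hj, hij⟩ := Ideal.isCoprime_iff_exists.mp hB
    apply ht
    have h5 : t = t * i + t * j := by rw [← mul_add, hij, mul_one]
    rw [h5]
    exact m.add_mem (h2 (Ideal.mul_mem_mul (Ideal.mem_span_singleton_self t) hi))
      (m.mul_mem_left _ hj)
  have h1 := sum_addF (f := fun x => ch z ((t * x : 𝓞 K) : K)) hper a
  have h2 : ∑ q : 𝓞 K ⧸ m, ch z ((t * (q.out + a) : 𝓞 K) : K) =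
      (∑ q : 𝓞 K ⧸ m, ch z ((t * q.out : 𝓞 K) : K)) * ch z ((t * a : 𝓞 K) : K) := by
    rw [Finset.sum_mul]
    refine Finset.sum_congr rfl fun q _ => ?_
    have h3 : ((t * (q.out + a) : 𝓞 K) : K) = ((t * q.out : 𝓞 K) : K) + ((t * a : 𝓞 K) : K) := by
      rw [mul_add]
      exact map_add (algebraMap (𝓞 K) K) _ _
    rw [h3, ch_add_right]
  beta_reduce at h1
  rw [h2] at h1
  have h3 : (∑ q : 𝓞 K ⧸ m, ch z ((t * q.out : 𝓞 K) : K)) *
      (1 - ch z ((t * a : 𝓞 K) : K)) = 0 := by linear_combination h1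
  rcases mul_eq_zero.mp h3 with h4 | h4
  · exact h4
  · exact absurd (sub_eq_zero.mp h4).symm ha

/-- Parseval -/
theorem sum_TT (hm : m ≠ ⊥) {z : K} {B : (Ideal (𝓞 K))⁰}
    (hB : IsCoprime (B : Ideal (𝓞 K)) m)
    (hz : FractionalIdeal.spanSingleton (𝓞 K)⁰ z =
      ((B : Ideal (𝓞 K)) : FractionalIdeal (𝓞 K)⁰ K) * dualF (m : FractionalIdeal (𝓞 K)⁰ K)) :
    ∑ q : 𝓞 K ⧸ m, TT S m ψ ((q.out : 𝓞 K) * z) *
      conj (TT S m ψ ((q.out : 𝓞 K) * z)) =
    (Fintype.card (𝓞 K ⧸ m) : ℂ) *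
      ∑ q : 𝓞 K ⧸ m, elN S m ψ q.out * conj (elN S m ψ q.out) := by
  have h1 : ∀ q : 𝓞 K ⧸ m, TT S m ψ ((q.out : 𝓞 K) * z) *
      conj (TT S m ψ ((q.out : 𝓞 K) * z)) =
      ∑ r : 𝓞 K ⧸ m, ∑ s : 𝓞 K ⧸ m, elN S m ψ r.out * conj (elN S m ψ s.out) *
        ch z (((r.out - s.out) * q.out : 𝓞 K) : K) := by
    intro q
    rw [TT, map_sum, Finset.sum_mul_sum]
    refine Finset.sum_congr rfl fun r _ => Finset.sum_congr rfl fun s _ => ?_
    rw [map_mul, conj_ch, ch_smul, ch_smul]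
    have h2 : ((((r.out - s.out) * q.out : 𝓞 K)) : K) =
        ((q.out : 𝓞 K) : K) * ((r.out : 𝓞 K) : K) + ((q.out : 𝓞 K) : K) * -((s.out : 𝓞 K) : K) := by
      have h3 : ((((r.out - s.out) * q.out : 𝓞 K)) : K) =
          (((r.out : 𝓞 K) : K) - ((s.out : 𝓞 K) : K)) * ((q.out : 𝓞 K) : K) := by
        rw [← map_sub, ← map_mul]
      rw [h3]
      ring
    rw [h2, ch_add_right]
    ring
  simp_rw [h1]
  rw [Finset.sum_comm]
  have h2 : ∀ r : 𝓞 K ⧸ m, ∑ q : 𝓞 K ⧸ m, ∑ s : 𝓞 K ⧸ m,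
      elN S m ψ r.out * conj (elN S m ψ s.out) *
        ch z (((r.out - s.out) * q.out : 𝓞 K) : K) =
      (Fintype.card (𝓞 K ⧸ m) : ℂ) * (elN S m ψ r.out * conj (elN S m ψ r.out)) := by
    intro r
    rw [Finset.sum_comm]
    have h3 : ∀ s : 𝓞 K ⧸ m, ∑ q : 𝓞 K ⧸ m,
        elN S m ψ r.out * conj (elN S m ψ s.out) *
          ch z (((r.out - s.out) * q.out : 𝓞 K) : K) =
        if s = r then (Fintype.card (𝓞 K ⧸ m) : ℂ) *
          (elN S m ψ r.out * conj (elN S m ψ r.out)) else 0 := by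
      intro s
      rw [← Finset.mul_sum]
      split_ifs with hsr
      · subst hsr
        have h4 : ∀ q : 𝓞 K ⧸ m, ch z (((s.out - s.out) * q.out : 𝓞 K) : K) = 1 := by
          intro q
          rw [sub_self, zero_mul]
          have : ((0 : 𝓞 K) : K) = 0 := map_zero (algebraMap (𝓞 K) K)
          rw [this, ch_zero_right]
        rw [Finset.sum_congr rfl fun q _ => h4 q, Finset.sum_const, Finset.card_univ, nsmul_eq_mul]
        ring
      · rw [sum_ch hm hB hz, mul_zero]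
        intro h5
        apply hsr
        rw [← mk_out s, ← mk_out r, eq_comm, Ideal.Quotient.mk_eq_mk_iff_sub_mem]
        exact h5
    rw [Finset.sum_congr rfl fun s _ => h3 s, Finset.sum_ite_eq' Finset.univ r,
      if_pos (Finset.mem_univ r)]
  rw [Finset.sum_congr rfl fun r _ => h2 r, Finset.mul_sum]

/-- **The absolute value of the Gauss sum.** -/
theorem norm_TT (hm : m ≠ ⊥) (h : NRayChar m ψ) (hS : HasS m ψ S) (hp : IsPrimC m ψ) {z : K}
    {B : (Ideal (𝓞 K))⁰} (hB : IsCoprime (B : Ideal (𝓞 K)) m)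
    (hz : FractionalIdeal.spanSingleton (𝓞 K)⁰ z =
      ((B : Ideal (𝓞 K)) : FractionalIdeal (𝓞 K)⁰ K) * dualF (m : FractionalIdeal (𝓞 K)⁰ K)) :
    ‖TT S m ψ z‖ = √(Ideal.absNorm m : ℝ) := by
  have hz' : z ∈ dualF (m : FractionalIdeal (𝓞 K)⁰ K) :=
    mem_of_mem_mul (hz ▸ FractionalIdeal.mem_spanSingleton_self _ z)
  have hcard : (Fintype.card (𝓞 K ⧸ m) : ℂ) = Ideal.absNorm m := by
    rw [← Nat.card_eq_fintype_card]
    rfl
  have h1 : ∀ q : 𝓞 K ⧸ m, TT S m ψ ((q.out : 𝓞 K) * z) *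
      conj (TT S m ψ ((q.out : 𝓞 K) * z)) =
      (TT S m ψ z * conj (TT S m ψ z)) *
        (elN S m ψ q.out * conj (elN S m ψ q.out)) := by
    intro q
    by_cases hq : IsCoprime (Ideal.span {(q.out : 𝓞 K)}) m
    · have h2 : elN S m ψ q.out * conj (elN S m ψ q.out) = 1 := by
        rw [Complex.mul_conj, Complex.normSq_eq_norm_sq, norm_elN_eq h hS hq]
        simp
      by_cases hq0 : (q.out : 𝓞 K) = 0
      · -- `m = ⊤`
        have hmt : m = ⊤ := by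
          rw [hq0, Ideal.span_singleton_eq_bot.mpr rfl, Ideal.isCoprime_iff_sup_eq, bot_sup_eq]
            at hq
          exact hq
        have h3 : ∀ y ∈ dualF (m : FractionalIdeal (𝓞 K)⁰ K), TT S m ψ y =
            Fintype.card (𝓞 K ⧸ m) := by
          intro y hy
          rw [TT, ← Finset.card_univ, Finset.cast_card]
          refine Finset.sum_congr rfl fun p _ => ?_
          rw [elN_top hS hmt, one_mul]
          exact ch_eq_one (FractionalIdeal.coeIdeal_ne_zero.mpr hm) hy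
            (mem_coe_of_mem (hmt.ge Submodule.mem_top))
        rw [h2, mul_one, h3 z hz', h3 _ (mem_smul _ hz')]
      · have h3 := TT_eq_mul hm h hS hz' hq0 hq
        rw [h3, map_mul]
        linear_combination (-(TT S m ψ ((q.out : 𝓞 K) * z) *
          conj (TT S m ψ ((q.out : 𝓞 K) * z)) *
          (elN S m ψ q.out * conj (elN S m ψ q.out) + 1))) * h2
    · have h2 : TT S m ψ ((q.out : 𝓞 K) * z) = 0 := by
        refine TT_eq_zero hm h hS hp (A := Ideal.span {(q.out : 𝓞 K)} * (B : Ideal (𝓞 K))) ?_ ?_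
        · exact fun h3 => hq h3.of_mul_left_left
        · rw [FractionalIdeal.coeIdeal_mul, mul_assoc, ← hz]
          exact FractionalIdeal.mul_mem_mul
            (mem_coe_of_mem (Ideal.mem_span_singleton_self _))
            (FractionalIdeal.mem_spanSingleton_self _ z)
      rw [h2, elN_eq_zero h hq, zero_mul, mul_zero]
  have h2 := sum_TT (S := S) (ψ := ψ) hm hB hz
  rw [Finset.sum_congr rfl fun q _ => h1 q, ← Finset.mul_sum] at h2
  have h3 : ∑ q : 𝓞 K ⧸ m, elN S m ψ q.out * conj (elN S m ψ q.out) ≠ 0 := by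
    have h4 : ∑ q : 𝓞 K ⧸ m, elN S m ψ q.out * conj (elN S m ψ q.out) =
        ((∑ q : 𝓞 K ⧸ m, ‖elN S m ψ q.out‖ ^ 2 : ℝ) : ℂ) := by
      push_cast
      refine Finset.sum_congr rfl fun q _ => ?_
      rw [Complex.mul_conj, Complex.normSq_eq_norm_sq]
      push_cast
      rfl
    rw [h4, Complex.ofReal_ne_zero]
    refine ne_of_gt (Finset.sum_pos' (fun q _ => by positivity)
      ⟨Ideal.Quotient.mk m 1, Finset.mem_univ _, ?_⟩)
    have h5 : elN S m ψ (Ideal.Quotient.mk m (1 : 𝓞 K)).out = 1 := by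
      rw [← elN_one hS]
      refine per_of_sub (fun x r hr => elN_add h hS x hr) ?_
      rw [← Ideal.Quotient.mk_eq_mk_iff_sub_mem, mk_out]
    rw [h5, norm_one]
    norm_num
  have h4 : TT S m ψ z * conj (TT S m ψ z) = Ideal.absNorm m := by
    rw [← hcard]
    exact mul_right_cancel₀ h3 h2
  rw [Complex.mul_conj, Complex.normSq_eq_norm_sq] at h4
  have h5 : ‖TT S m ψ z‖ ^ 2 = (Ideal.absNorm m : ℝ) := by exact_mod_cast h4
  rw [← h5, Real.sqrt_sq (norm_nonneg _)]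

/-! ### The ideals `J` -/

theorem isReps_image {J : Ideal (𝓞 K)} (hJ : IsCoprime J m) {j b : 𝓞 K} (hj : j ∈ J)
    (hb : b * j - 1 ∈ m) : IsReps (J : FractionalIdeal (𝓞 K)⁰ K)
      ((J * m : Ideal (𝓞 K)) : FractionalIdeal (𝓞 K)⁰ K)
      (Finset.univ.image fun q : 𝓞 K ⧸ m => ((j * q.out : 𝓞 K) : K)) := by
  have hinf : J ⊓ m = J * m := (Ideal.mul_eq_inf_of_isCoprime hJ).symm
  refine ⟨?_, ?_⟩
  · intro r hr
    obtain ⟨q, -, rfl⟩ := Finset.mem_image.mp hr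
    exact mem_coe_of_mem (J.mul_mem_right _ hj)
  · intro x hx
    obtain ⟨x, hxJ, rfl⟩ := mem_coeIdeal_iff'.mp hx
    have hq : ∀ q : 𝓞 K ⧸ m, x - j * q.out ∈ m ↔ q = Ideal.Quotient.mk m (b * x) := by
      intro q
      have h1 : b * x - q.out ∈ m ↔ q = Ideal.Quotient.mk m (b * x) := by
        rw [← Ideal.Quotient.mk_eq_mk_iff_sub_mem, mk_out, eq_comm]
      rw [← h1]
      constructor
      · intro h2
        have : b * x - q.out = b * (x - j * q.out) + (b * j - 1) * q.out := by ring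
        rw [this]
        exact m.add_mem (m.mul_mem_left _ h2) (m.mul_mem_right _ hb)
      · intro h2
        have : x - j * q.out = j * (b * x - q.out) - (b * j - 1) * x := by ring
        rw [this]
        exact m.sub_mem (m.mul_mem_left _ h2) (m.mul_mem_right _ hb)
    have hmem : ∀ q : 𝓞 K ⧸ m, (x : K) - ((j * q.out : 𝓞 K) : K) ∈
        ((J * m : Ideal (𝓞 K)) : FractionalIdeal (𝓞 K)⁰ K) ↔ x - j * q.out ∈ m := by
      intro q
      have h1 : ((x - j * q.out : 𝓞 K) : K) = (x : K) - ((j * q.out : 𝓞 K) : K) :=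
        map_sub (algebraMap (𝓞 K) K) _ _
      rw [← h1, mem_coeIdeal_iff', ← hinf]
      constructor
      · rintro ⟨c, hc, hcx⟩
        have h2 : c = x - j * q.out := RingOfIntegers.ext hcx
        rw [← h2]
        exact hc.2
      · intro h2
        exact ⟨_, ⟨J.sub_mem hxJ (J.mul_mem_right _ hj), h2⟩, rfl⟩
    refine ⟨((j * (Ideal.Quotient.mk m (b * x)).out : 𝓞 K) : K),
      ⟨Finset.mem_image_of_mem _ (Finset.mem_univ _), ?_⟩, ?_⟩
    · rw [hmem, hq]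
    · rintro r ⟨hr, hxr⟩
      obtain ⟨q, -, rfl⟩ := Finset.mem_image.mp hr
      rw [hmem, hq] at hxr
      rw [hxr]

theorem sum_reps_eq (hm : m ≠ ⊥) (h : NRayChar m ψ) (hS : HasS m ψ S) {J : Ideal (𝓞 K)}
    (hJ0 : J ≠ ⊥) (hJ : IsCoprime J m) {j : 𝓞 K} (hj0 : j ≠ 0) (hj : j ∈ J)
    (hjm : IsCoprime (Ideal.span {j}) m) {R : Finset K}
    (hR : IsReps (J : FractionalIdeal (𝓞 K)⁰ K)
      ((J * m : Ideal (𝓞 K)) : FractionalIdeal (𝓞 K)⁰ K) R) {y : K}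
    (hy : y ∈ dualF ((J * m : Ideal (𝓞 K)) : FractionalIdeal (𝓞 K)⁰ K)) :
    ∑ r ∈ R, wN S m ψ J r * ch y r = elN S m ψ j * TT S m ψ (j * y) := by
  obtain ⟨b, hb0, hb⟩ := exists_invF hjm
  have hw := isWtS_wN hm h hS hJ0
  rw [sum_reps hR (isReps_image hJ hj hb) (g := fun x => wN S m ψ J x * ch y x) (fun x c hc => by
    rw [hw.per x c hc, ch_add_right, ch_eq_one hw.hc hy hc, mul_one]), Finset.sum_image, TT,
    Finset.mul_sum]
  · refine Finset.sum_congr rfl fun q _ => ?_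
    have h1 : ((j * q.out : 𝓞 K) : K) = (j : K) * ((q.out : 𝓞 K) : K) :=
      map_mul (algebraMap (𝓞 K) K) _ _
    rw [wN_coe (J.mul_mem_right _ hj), elN_mulF hS hj0, ch_smul, h1]
    ring
  · intro q _ q' _ hqq
    have h1 : j * (q.out : 𝓞 K) = j * (q'.out : 𝓞 K) := RingOfIntegers.ext hqq
    have h2 := mul_left_cancel₀ hj0 h1
    rw [← mk_out q, ← mk_out q', h2]

end Sums

/-- a primitive additive character -/
theorem exists_prim (hm : m ≠ ⊥) : ∃ (z : K) (B : (Ideal (𝓞 K))⁰), z ≠ 0 ∧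
    IsCoprime (B : Ideal (𝓞 K)) m ∧ FractionalIdeal.spanSingleton (𝓞 K)⁰ z =
      ((B : Ideal (𝓞 K)) : FractionalIdeal (𝓞 K)⁰ K) * dualF (m : FractionalIdeal (𝓞 K)⁰ K) := by
  let D : (FractionalIdeal (𝓞 K)⁰ K)ˣ := Units.mk0 (dualF (m : FractionalIdeal (𝓞 K)⁰ K))
    (Ray.dualF_ne_zero (FractionalIdeal.coeIdeal_ne_zero.mpr hm))
  obtain ⟨B, hBC, hB⟩ := exists_coprime_mk0 (m := m) (ClassGroup.mk K D)⁻¹ hm
  let 𝔞 : Cls D := ⟨B, by rw [hBC, inv_mul_cancel]⟩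
  exact ⟨(Classes.gen 𝔞 : K), B, (Classes.gen 𝔞).ne_zero, hB, Classes.span_gen 𝔞⟩

/-- **(G)** with the absolute value: the Gauss sums of a primitive narrow ray class character. -/
theorem exists_gauss (hm : m ≠ ⊥) (h : NRayChar m ψ) (hS : HasS m ψ S) (hp : IsPrimC m ψ) :
    ∃ τ : ℂ, ‖τ‖ = √(Ideal.absNorm m : ℝ) ∧
      ∀ J : (Ideal (𝓞 K))⁰, IsCoprime (J : Ideal (𝓞 K)) m → ∀ R : Finset K, RepsJ m J R →
        ∀ (y : K) (A : (Ideal (𝓞 K))⁰), GenJ m J y A →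
          gsJ S m ψ J R y = τ * ψ J * conj (ψ A) * (sg S y : ℂ) := by
  have := finite_quot hm
  have := Fintype.ofFinite (𝓞 K ⧸ m)
  obtain ⟨z₀, B, hz₀, hB, hzB⟩ := exists_prim hm
  refine ⟨TT S m ψ z₀ * ψ B * (sg S z₀ : ℂ), ?_, ?_⟩
  · rw [norm_mul, norm_mul, norm_TT hm h hS hp hB hzB, norm_psi hm h hS hB, mul_one,
      Complex.norm_real, Real.norm_eq_abs, abs_sg S hz₀, mul_one]
  · intro J hJ R hR y A hyA
    obtain ⟨J', j, hj0, hJ', hjc, hJJ⟩ := exists_mul_eq_span hm hJ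
    have hjJ : j ∈ (J : Ideal (𝓞 K)) :=
      Ideal.mul_le_left (hJJ ▸ Ideal.mem_span_singleton_self j)
    have hyA' : FractionalIdeal.spanSingleton (𝓞 K)⁰ y =
      ((A : Ideal (𝓞 K)) : FractionalIdeal (𝓞 K)⁰ K) *
        dualF (((J : Ideal (𝓞 K)) * m : Ideal (𝓞 K)) : FractionalIdeal (𝓞 K)⁰ K) := hyA
    have hJm0 : (((J : Ideal (𝓞 K)) * m : Ideal (𝓞 K)) : FractionalIdeal (𝓞 K)⁰ K) ≠ 0 :=
      FractionalIdeal.coeIdeal_ne_zero.mpr (mul_ne_zero (nonZeroDivisors.coe_ne_zero J) hm)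
    have hy0 : y ≠ 0 := by
      rintro rfl
      rw [FractionalIdeal.spanSingleton_zero, eq_comm, mul_eq_zero] at hyA'
      rcases hyA' with h1 | h1
      · exact FractionalIdeal.coeIdeal_ne_zero.mpr (nonZeroDivisors.coe_ne_zero A) h1
      · exact Ray.dualF_ne_zero hJm0 h1
    have hy : y ∈ dualF (((J : Ideal (𝓞 K)) * m : Ideal (𝓞 K)) : FractionalIdeal (𝓞 K)⁰ K) :=
      mem_of_mem_mul (hyA' ▸ FractionalIdeal.mem_spanSingleton_self _ y)
    rw [gsJ, sum_reps_eq hm h hS (nonZeroDivisors.coe_ne_zero J) hJ hj0 hjJ hjc hR hy]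
    -- the ideal of `j y`
    have hdual : ((J : Ideal (𝓞 K)) : FractionalIdeal (𝓞 K)⁰ K) *
        dualF (((J : Ideal (𝓞 K)) * m : Ideal (𝓞 K)) : FractionalIdeal (𝓞 K)⁰ K) =
        dualF (m : FractionalIdeal (𝓞 K)⁰ K) := by
      have h1 := self_mul_dualF (K := K) (mul_ne_zero (nonZeroDivisors.coe_ne_zero J) hm)
      have h2 : (m : FractionalIdeal (𝓞 K)⁰ K) * (((J : Ideal (𝓞 K)) : FractionalIdeal (𝓞 K)⁰ K) *
          dualF (((J : Ideal (𝓞 K)) * m : Ideal (𝓞 K)) : FractionalIdeal (𝓞 K)⁰ K)) =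
          (m : FractionalIdeal (𝓞 K)⁰ K) * dualF (m : FractionalIdeal (𝓞 K)⁰ K) := by
        rw [self_mul_dualF hm, ← h1, ← mul_assoc, ← FractionalIdeal.coeIdeal_mul, mul_comm m]
      exact mul_left_cancel₀ (FractionalIdeal.coeIdeal_ne_zero.mpr hm) h2
    have hjy : FractionalIdeal.spanSingleton (𝓞 K)⁰ ((j : K) * y) =
        (((J' * A : (Ideal (𝓞 K))⁰) : Ideal (𝓞 K)) : FractionalIdeal (𝓞 K)⁰ K) *
          dualF (m : FractionalIdeal (𝓞 K)⁰ K) := by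
      rw [← FractionalIdeal.spanSingleton_mul_spanSingleton, hyA', ← hdual,
        ← FractionalIdeal.coeIdeal_span_singleton, ← hJJ,
        FractionalIdeal.coeIdeal_mul (J : Ideal (𝓞 K)) (J' : Ideal (𝓞 K)),
        Submonoid.coe_mul, FractionalIdeal.coeIdeal_mul (J' : Ideal (𝓞 K)) (A : Ideal (𝓞 K))]
      ring
    have hjy0 : (j : K) * y ≠ 0 := mul_ne_zero (coe_ne_zeroF hj0) hy0
    by_cases hA : IsCoprime (A : Ideal (𝓞 K)) m
    · have hJA : IsCoprime ((J' * A : (Ideal (𝓞 K))⁰) : Ideal (𝓞 K)) m := by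
        rw [Submonoid.coe_mul]
        exact IsCoprime.mul_left hJ' hA
      have h1 := TT_indep (S := S) hm h hS hJA hB hjy0 hz₀ hjy hzB
      have h3 := psi_mul_conj hm h hS hA
      have h5 : (sg S y : ℂ) * (sg S y : ℂ) = 1 := by exact_mod_cast sg_sq S hy0
      have h6 : (sg S ((j : K) * y) : ℂ) = (sg S (j : K) : ℂ) * (sg S y : ℂ) := by
        rw [sg_mul, Complex.ofReal_mul]
      have h7 : ψ (sp j hj0) = ψ J * ψ J' := by
        rw [← map_mul]
        exact congrArg ψ (Subtype.ext hJJ.symm)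
      rw [← h1, map_mul, h6, elN_of_ne hj0, h7]
      have h8 : ∀ a b c d e f g : ℂ, c * d = 1 → e * e = 1 →
          a * b * f * g = g * (b * c) * (f * e) * a * d * e := by
        intro a b c d e f g hcd hee
        linear_combination (-(a * b * f * g * (e * e))) * hcd - (a * b * f * g) * hee
      exact h8 _ _ _ _ _ _ _ h3 h5
    · have h1 : TT S m ψ ((j : K) * y) = 0 := by
        refine TT_eq_zero hm h hS hp (A := ((J' * A : (Ideal (𝓞 K))⁰) : Ideal (𝓞 K))) ?_ ?_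
        · rw [Submonoid.coe_mul]
          exact fun h2 => hA h2.of_mul_left_right
        · rw [← hjy]
          exact FractionalIdeal.mem_spanSingleton_self _ _
      have h2 : conj (ψ A) = 0 := by rw [h.eq_zero A hA, map_zero]
      rw [h1, h2, mul_zero, mul_zero, zero_mul]

/-- **(G)** -/
theorem gaussStmt (K : Type u) [Field K] [NumberField K] : GaussStmt K := by
  intro S m ψ h hp
  obtain ⟨τ, -, h1⟩ := exists_gauss h.hm h.hψ h.hS hp
  exact ⟨τ, h1⟩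

end Fermat.Agent.Cor.RayF

end
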