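import Fermat.Agent.Corollaries.RayF.Defs
import Mathlib.Analysis.Complex.CauchyIntegral
import Mathlib.Analysis.Analytic.IsolatedZeros
import Mathlib.Analysis.Analytic.Uniqueness

/-!
# From the two half-planes to the functional equation

`glueStmt`: if `A`, holomorphic outside `0`, `1`, is `D^{s/2} G(s) L(s)` for `Re s > 1` and
`W D^{(1-s)/2} G(1-s) conj L(conj (1-s))` for `Re s < 0`, where `L` and `1/G` are entire and `G`
has no zeros (and no poles) for `Re s > 0`, then `|W| = 1` (unless `L = 0`) and `D^{s/2} G(s) L(s)`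
extends to an entire function `Λ` with `Λ(s) = W · conj Λ(1 - conj s)`.
-/

set_option autoImplicit false

noncomputable section

namespace Fermat.Agent.Cor.RayF

open scoped ComplexConjugate
open Filter Topology

namespace Glue

/-- Two functions, holomorphic on `ℂ` without `0`, `1`, which agree on a nonempty open set, agree
everywhere except perhaps at `0`, `1`. -/
theorem eq_of_eqOn {f g : ℂ → ℂ} (hf : ∀ s, s ≠ 0 → s ≠ 1 → DifferentiableAt ℂ f s)
    (hg : ∀ s, s ≠ 0 → s ≠ 1 → DifferentiableAt ℂ g s) {U : Set ℂ} (hU : IsOpen U) {z : ℂ}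
    (hz : z ∈ U) (hz0 : z ≠ 0) (hz1 : z ≠ 1) (h : ∀ s ∈ U, f s = g s) {s : ℂ} (hs0 : s ≠ 0)
    (hs1 : s ≠ 1) : f s = g s := by
  have hO : IsOpen ({0, 1}ᶜ : Set ℂ) := (Set.toFinite {0, 1}).isClosed.isOpen_compl
  have hc : IsPreconnected ({0, 1}ᶜ : Set ℂ) := by
    have hcount : ({0, 1} : Set ℂ).Countable := (Set.toFinite {0, 1}).countable
    have hrank : 1 < Module.rank ℝ ℂ := by
      rw [Complex.rank_real_complex]
      norm_num
    exact (hcount.isConnected_compl_of_one_lt_rank hrank).isPreconnected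
  have key : ∀ k : ℂ → ℂ, (∀ s, s ≠ 0 → s ≠ 1 → DifferentiableAt ℂ k s) →
      AnalyticOnNhd ℂ k ({0, 1}ᶜ : Set ℂ) := by
    intro k hk
    refine DifferentiableOn.analyticOnNhd (fun x hx => ?_) hO
    have hx' : x ≠ 0 ∧ x ≠ 1 := by simpa using hx
    exact (hk x hx'.1 hx'.2).differentiableWithinAt
  have hzm : z ∈ ({0, 1}ᶜ : Set ℂ) := by simp [hz0, hz1]
  have hsm : s ∈ ({0, 1}ᶜ : Set ℂ) := by simp [hs0, hs1]
  exact (key f hf).eqOn_of_preconnected_of_eventuallyEq (key g hg) hc hzm
    (Filter.eventuallyEq_of_mem (hU.mem_nhds hz) h) hsm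

theorem isOpen_re_gt (a : ℝ) : IsOpen {s : ℂ | a < s.re} :=
  isOpen_lt continuous_const Complex.continuous_re

theorem isOpen_re_lt (a : ℝ) : IsOpen {s : ℂ | s.re < a} :=
  isOpen_lt Complex.continuous_re continuous_const

/-- `s ↦ conj (f (1 - conj s))` is entire if `f` is. -/
theorem differentiable_star {f : ℂ → ℂ} (hf : Differentiable ℂ f) :
    Differentiable ℂ fun s => conj (f (1 - conj s)) := by
  have h1 : Differentiable ℂ fun s => conj (f (conj s)) := by
    intro s
    have h := (hf (conj s)).conj_conj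
    rw [Complex.conj_conj] at h
    exact h
  have h2 : (fun s => conj (f (1 - conj s))) = (fun s => conj (f (conj s))) ∘ fun s => 1 - s := by
    funext s
    simp
  rw [h2]
  exact h1.comp (by fun_prop)

end Glue

open Glue

/-- **(P3)** from the two half-planes to the functional equation. -/
theorem glueStmt : GlueStmt := by
  intro G L A W D hD hL hG0 hGi hGc hA hA1 hA0 hne
  have hDc : (D : ℂ) ≠ 0 := Complex.ofReal_ne_zero.mpr hD.ne'
  -- `B = D^{s/2} L(s)`
  let B : ℂ → ℂ := fun s => (D : ℂ) ^ (s / 2) * L s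
  have hB : Differentiable ℂ B := by
    intro s
    exact ((differentiableAt_id.div_const 2).const_cpow (Or.inl hDc)).mul (hL s)
  -- `B* = conj (B (1 - conj s))`
  let Bs : ℂ → ℂ := fun s => conj (B (1 - conj s))
  have hBs : Differentiable ℂ Bs := differentiable_star hB
  have hBs' : ∀ s, Bs s = (D : ℂ) ^ ((1 - s) / 2) * conj (L (conj (1 - s))) := by
    intro s
    change conj ((D : ℂ) ^ ((1 - conj s) / 2) * L (1 - conj s)) = _
    have h1 : conj ((D : ℂ) ^ ((1 - conj s) / 2)) = (D : ℂ) ^ ((1 - s) / 2) := by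
      have h2 : (D : ℂ).arg ≠ Real.pi := by
        rw [Complex.arg_ofReal_of_nonneg hD.le]
        exact Real.pi_ne_zero.symm
      have h3 := Complex.conj_cpow (D : ℂ) ((1 - s) / 2) h2
      rw [Complex.conj_ofReal] at h3
      have h4 : conj ((1 - s) / 2) = (1 - conj s) / 2 := by
        rw [map_div₀, map_sub, map_one, Complex.conj_ofNat]
      rw [h3, h4]
    rw [map_mul, h1]
    simp
  -- `G` is holomorphic for `Re s > 0`
  have hGd : ∀ s : ℂ, 0 < s.re → DifferentiableAt ℂ G s := by
    intro s hs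
    have h1 : DifferentiableAt ℂ (fun s => ((G s)⁻¹)⁻¹) s :=
      (hGi s).inv (inv_ne_zero (hG0 s hs))
    simpa using h1
  -- the first half
  have e1 : ∀ s, s ≠ 0 → s ≠ 1 → A s * (G s)⁻¹ = B s := by
    intro s hs0 hs1
    refine eq_of_eqOn (f := fun s => A s * (G s)⁻¹) (g := B) (U := {s : ℂ | 1 < s.re}) (z := 2)
      (fun s h0 h1 => (hA s h0 h1).mul (hGi s)) (fun s _ _ => hB s) (isOpen_re_gt 1) ?_ (by norm_num)
      (by norm_num) ?_ hs0 hs1
    · simp
    · intro s hs
      have hs' : 1 < s.re := hs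
      have hg : G s ≠ 0 := hG0 s (by linarith)
      change A s * (G s)⁻¹ = (D : ℂ) ^ (s / 2) * L s
      rw [hA1 s hs']
      field_simp
  have e2 : ∀ s, s ≠ 0 → s ≠ 1 → A s * (G (1 - s))⁻¹ = W * Bs s := by
    intro s hs0 hs1
    refine eq_of_eqOn (f := fun s => A s * (G (1 - s))⁻¹) (g := fun s => W * Bs s)
      (U := {s : ℂ | s.re < 0}) (z := -1)
      (fun s h0 h1 => (hA s h0 h1).mul ?_) (fun s _ _ => (hBs s).const_mul W) (isOpen_re_lt 0) ?_
      (by norm_num) (by norm_num) ?_ hs0 hs1
    · exact (hGi.comp (by fun_prop : Differentiable ℂ fun s : ℂ => 1 - s)) s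
    · simp
    · intro s hs
      have hs' : s.re < 0 := hs
      have hg : G (1 - s) ≠ 0 := hG0 (1 - s) (by simp; linarith)
      change A s * (G (1 - s))⁻¹ = W * Bs s
      rw [hA0 s hs', hBs' s]
      field_simp
  -- the same, solved for `A`
  have f1 : ∀ s : ℂ, 0 < s.re → s ≠ 1 → A s = G s * B s := by
    intro s hs hs1
    have hs0 : s ≠ 0 := by
      rintro rfl
      simp at hs
    rw [← e1 s hs0 hs1, mul_comm (A s), mul_inv_cancel_left₀ (hG0 s hs)]
  have f2 : ∀ s : ℂ, s.re < 1 → s ≠ 0 → A s = W * (G (1 - s) * Bs s) := by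
    intro s hs hs0
    have hs1 : s ≠ 1 := by
      rintro rfl
      simp at hs
    have h1 : 0 < (1 - s).re := by simp; linarith
    have h2 := e2 s hs0 hs1
    calc A s = G (1 - s) * (A s * (G (1 - s))⁻¹) := by
          rw [mul_comm (A s), mul_inv_cancel_left₀ (hG0 _ h1)]
      _ = W * (G (1 - s) * Bs s) := by rw [h2]; ring
  -- `G (1 - s) B*(s) = conj ((G B) (1 - conj s))`
  have f3 : ∀ s : ℂ, G (1 - s) * Bs s = conj (G (1 - conj s) * B (1 - conj s)) := by
    intro s
    rw [map_mul, ← hGc]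
    simp [Bs]
  -- the function
  let Λ : ℂ → ℂ := fun s => if 0 < s.re then G s * B s else W * (G (1 - s) * Bs s)
  have g1 : ∀ s : ℂ, 0 < s.re → Λ s = G s * B s := fun s hs => if_pos hs
  have g2 : ∀ s : ℂ, s.re < 1 → Λ s = W * (G (1 - s) * Bs s) := by
    intro s hs
    by_cases h : 0 < s.re
    · have hs1 : s ≠ 1 := by
        rintro rfl
        simp at hs
      have hs0 : s ≠ 0 := by
        rintro rfl
        simp at h
      rw [g1 s h, ← f1 s h hs1, f2 s hs hs0]
    · exact if_neg h
  have hΛd : Differentiable ℂ Λ := by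
    intro s
    by_cases h : 0 < s.re
    · have h1 : DifferentiableAt ℂ (fun s => G s * B s) s := (hGd s h).mul (hB s)
      refine h1.congr_of_eventuallyEq ?_
      exact Filter.eventuallyEq_of_mem ((isOpen_re_gt 0).mem_nhds h) fun z hz => g1 z hz
    · have h' : s.re < 1 := by linarith
      have h1 : DifferentiableAt ℂ (fun s => W * (G (1 - s) * Bs s)) s := by
        have h2 : DifferentiableAt ℂ G (1 - s) := hGd _ (by simp; linarith)
        have h3 : DifferentiableAt ℂ (fun s => G (1 - s)) s :=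
          h2.comp s ((differentiableAt_const (1 : ℂ)).sub differentiableAt_id)
        exact (h3.mul (hBs s)).const_mul W
      refine h1.congr_of_eventuallyEq ?_
      exact Filter.eventuallyEq_of_mem ((isOpen_re_lt 1).mem_nhds h') fun z hz => g2 z hz
  -- the functional equation for `Re s < 1`
  have k1 : ∀ s : ℂ, s.re < 1 → Λ s = W * conj (Λ (1 - conj s)) := by
    intro s hs
    have h1 : 0 < (1 - conj s).re := by simp; linarith
    rw [g2 s hs, f3 s, g1 _ h1]
  -- `|W| = 1`
  have hWW : ∀ s : ℂ, s.re < 1 → 0 < s.re → Λ s = (W * conj W) * Λ s := by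
    intro s hs hs'
    have h1 : (1 - conj s).re < 1 := by simp; linarith
    have h2 := k1 (1 - conj s) h1
    have h3 : 1 - conj (1 - conj s) = s := by simp
    rw [h3] at h2
    have h4 := k1 s hs
    rw [h2, map_mul, Complex.conj_conj] at h4
    rw [mul_assoc]
    exact h4
  have hW : W * conj W = 1 := by
    by_contra hWn
    -- then `Λ = 0` on the strip
    have h0 : ∀ s : ℂ, s ∈ {s : ℂ | s.re < 1} ∩ {s : ℂ | 0 < s.re} → Λ s = 0 := by
      rintro s ⟨hs, hs'⟩
      have h1 := hWW s hs hs'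
      have h2 : (1 - W * conj W) * Λ s = 0 := by linear_combination h1
      exact (mul_eq_zero.mp h2).resolve_left (sub_ne_zero.mpr (Ne.symm hWn))
    obtain ⟨s, hs, hLs⟩ := hne
    have hs0 : s ≠ 0 := by
      rintro rfl
      simp at hs
      linarith
    have hs1 : s ≠ 1 := by
      rintro rfl
      simp at hs
    have h1 : Λ s = 0 := by
      refine eq_of_eqOn (f := Λ) (g := fun _ => 0) (z := 1 / 2) (fun s _ _ => hΛd s)
        (fun s _ _ => differentiableAt_const 0) ((isOpen_re_lt 1).inter (isOpen_re_gt 0)) ?_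
        (by norm_num) (by norm_num) h0 hs0 hs1
      constructor
      · change ((1 / 2 : ℂ)).re < 1
        norm_num
      · change 0 < ((1 / 2 : ℂ)).re
        norm_num
    rw [g1 s (by linarith)] at h1
    have h2 : B s ≠ 0 := mul_ne_zero (by simp [Complex.cpow_eq_zero_iff, hDc]) hLs
    exact mul_ne_zero (hG0 s (by linarith)) h2 h1
  refine ⟨?_, Λ, hΛd, ?_, ?_⟩
  · have h1 := congrArg norm hW
    rw [norm_mul, Complex.norm_conj, norm_one] at h1
    nlinarith [norm_nonneg W]
  · intro s hs
    rw [g1 s hs]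
    change G s * ((D : ℂ) ^ (s / 2) * L s) = _
    ring
  · intro s
    by_cases hs : s.re < 1
    · exact k1 s hs
    · have h1 : (1 - conj s).re < 1 := by simp; linarith
      have h2 := k1 (1 - conj s) h1
      have h3 : 1 - conj (1 - conj s) = s := by simp
      rw [h3] at h2
      rw [h2, map_mul, Complex.conj_conj, ← mul_assoc, hW, one_mul]

end Fermat.Agent.Cor.RayF
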