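import Fermat.Agent.Corollaries.RayF.Main
import Fermat.Agent.Corollaries.RayF.Gauss
import Fermat.Agent.Corollaries.RayF.FE
import Fermat.Agent.Corollaries.RayF.Glue
import Fermat.Agent.Corollaries.RayN.Final

/-!
# Hecke's functional equation

`K` a number field, `𝔪 ≠ 0` an ideal, `ψ` a non-trivial primitive narrow ray class character
modulo `𝔪`, `S` its infinity type: the set of real places with `ψ((a)) = ∏_{w ∈ S} sgn a_w` for all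
`a ≡ 1 mod 𝔪`. Then

`Λ(s, ψ) = (|d| N𝔪)^{s/2} Γ_ℝ(s)^{r₁ - |S|} Γ_ℝ(s+1)^{|S|} Γ_ℂ(s)^{r₂} L(s, ψ)`

is entire and `Λ(s, ψ) = W(ψ) conj Λ(1 - conj s, ψ)` with `W(ψ) = (-i)^{|S|} τ(ψ) / √N𝔪`, `τ(ψ)` the
Gauss sum, `|τ(ψ)| = √N𝔪` (Hecke 1917 - 1920).
-/

set_option autoImplicit false

noncomputable section

namespace Fermat.Agent.Cor.RayF

open NumberField NumberField.InfinitePlace
open Fermat.Agent.Classic.Zeta Fermat.Agent.Cor.Ray Fermat.Agent.Cor.RayN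
open scoped nonZeroDivisors ComplexConjugate Classical

universe u

/-- **Hecke's functional equation.** -/
theorem funEqStmt (K : Type u) [Field K] [NumberField K] : FunEqStmt K :=
  funEqStmt_of (gaussStmt K) (feStmt K) glueStmt (nonVanNStmt K)

variable {K : Type u} [Field K] [NumberField K] {𝔪 : Ideal (𝓞 K)} {ψ : (Ideal (𝓞 K))⁰ →* ℂ}

/-- **Hecke's functional equation with the Gauss sum.** `S` is the infinity type of `ψ`, `τ` its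
Gauss sum. -/
theorem functional_equation (hm : 𝔪 ≠ ⊥) (h : NRayChar 𝔪 ψ) (hp : IsPrimC 𝔪 ψ)
    (hq : ∃ I : (Ideal (𝓞 K))⁰, IsCoprime (I : Ideal (𝓞 K)) 𝔪 ∧ ψ I ≠ 1) :
    ∃ (S : Finset (RP K)) (τ : ℂ) (Λ : ℂ → ℂ), HasS 𝔪 ψ S ∧ IsGauss S 𝔪 ψ τ ∧
      ‖τ‖ = √(Ideal.absNorm 𝔪 : ℝ) ∧ Differentiable ℂ Λ ∧
      (∀ s : ℂ, 1 < s.re → Λ s =
        ((|(discr K : ℝ)| * (Ideal.absNorm 𝔪 : ℝ) : ℝ) : ℂ) ^ (s / 2) * gamS K S s * Ray.Ls ψ s) ∧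
      ∀ s, Λ s = (-Complex.I) ^ S.card * τ / ((√(Ideal.absNorm 𝔪 : ℝ) : ℝ) : ℂ) *
        conj (Λ (1 - conj s)) := by
  obtain ⟨S, hS⟩ := h.exists_S hm
  obtain ⟨τ, hτ⟩ := gaussStmt K S 𝔪 ψ ⟨hm, h, hS⟩ hp
  obtain ⟨h1, -, Λ, h2, h3, h4⟩ :=
    funEq_of_gauss (feStmt K) glueStmt (nonVanNStmt K) hm h hS hτ hq
  exact ⟨S, τ, Λ, hS, hτ, h1, h2, h3, h4⟩

/-- **Hecke's functional equation, all definitions unfolded.** `ψ` is a completely multiplicative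
function on the nonzero ideals with `ψ((a)) = 1` for the totally positive `a ≡ 1 mod 𝔪`, zero on the
ideals not prime to `𝔪`; it is primitive (no proper divisor `𝔫` of `𝔪` has this property on the
ideals prime to `𝔪`) and not identically `1`. -/
theorem hecke_functional_equation (hm : 𝔪 ≠ ⊥) (h1 : ∀ I, ‖ψ I‖ ≤ 1)
    (h2 : ∀ I : (Ideal (𝓞 K))⁰, ¬ IsCoprime (I : Ideal (𝓞 K)) 𝔪 → ψ I = 0)
    (h3 : ∀ (I : (Ideal (𝓞 K))⁰) (a : 𝓞 K), (I : Ideal (𝓞 K)) = Ideal.span {a} → a - 1 ∈ 𝔪 →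
      (∀ w : {w : InfinitePlace K // w.IsReal}, 0 < embedding_of_isReal w.2 (a : K)) → ψ I = 1)
    (h4 : ∀ 𝔫 : Ideal (𝓞 K), 𝔪 ≤ 𝔫 → 𝔫 ≠ 𝔪 → ∃ (I : (Ideal (𝓞 K))⁰) (a : 𝓞 K),
      (I : Ideal (𝓞 K)) = Ideal.span {a} ∧ IsCoprime (I : Ideal (𝓞 K)) 𝔪 ∧ a - 1 ∈ 𝔫 ∧
      (∀ w : {w : InfinitePlace K // w.IsReal}, 0 < embedding_of_isReal w.2 (a : K)) ∧ ψ I ≠ 1)
    (h5 : ∃ I : (Ideal (𝓞 K))⁰, IsCoprime (I : Ideal (𝓞 K)) 𝔪 ∧ ψ I ≠ 1) :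
    ∃ (n : ℕ) (W : ℂ) (Λ : ℂ → ℂ), n ≤ nrRealPlaces K ∧ ‖W‖ = 1 ∧ Differentiable ℂ Λ ∧
      (∀ s : ℂ, 1 < s.re → Λ s =
        ((|(discr K : ℝ)| * (Ideal.absNorm 𝔪 : ℝ) : ℝ) : ℂ) ^ (s / 2) *
          (Complex.Gammaℝ s ^ (nrRealPlaces K - n) * Complex.Gammaℝ (s + 1) ^ n *
            Complex.Gammaℂ s ^ nrComplexPlaces K) *
          ∑' I : (Ideal (𝓞 K))⁰, ψ I * (Ideal.absNorm (I : Ideal (𝓞 K)) : ℂ) ^ (-s)) ∧
      ∀ s, Λ s = W * conj (Λ (1 - conj s)) := by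
  have hp : IsPrimC 𝔪 ψ := by
    intro 𝔫 h6 h7
    obtain ⟨I, a, hI, hc, ha, hw, hψ⟩ := h4 𝔫 h6 h7
    have ha0 : a ≠ 0 := by
      rintro rfl
      rw [Ideal.span_singleton_eq_bot.mpr rfl] at hI
      exact nonZeroDivisors.coe_ne_zero I hI
    refine ⟨a, ha0, ?_, ha, hw, ?_⟩
    · rw [← hI]
      exact hc
    · have h8 : sp a ha0 = I := Subtype.ext hI.symm
      rwa [h8]
  obtain ⟨S, W, Λ, hW, hΛ, h6, h7⟩ := funEqStmt K 𝔪 hm ψ ⟨h1, h2, h3⟩ hp h5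
  refine ⟨S.card, W, Λ, ?_, hW, hΛ, h6, h7⟩
  calc S.card ≤ Fintype.card (RP K) := Finset.card_le_univ S
    _ = nrRealPlaces K := rfl

end Fermat.Agent.Cor.RayF
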