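import Fermat.Agent.Corollaries.RayF.Defs
import Fermat.Agent.Corollaries.RayN.EntireN
import Fermat.Agent.Corollaries.RayN.EntireS
import Fermat.Agent.Corollaries.RayN.ThetaS

/-!
# Hecke's functional equation: assembly
-/

set_option autoImplicit false
set_option linter.unusedSectionVars false

noncomputable section

namespace Fermat.Agent.Cor.RayF

open NumberField NumberField.InfinitePlace NumberField.Units
open Fermat.Agent.Classic.Zeta Fermat.Agent.Cor.Ray Fermat.Agent.Cor.RayN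
open scoped nonZeroDivisors Classical ComplexConjugate

universe u

variable {K : Type u} [Field K] [NumberField K] {S : Finset (RP K)} {m : Ideal (𝓞 K)}
  {ψ : (Ideal (𝓞 K))⁰ →* ℂ}

/-! ### Conjugation -/

theorem conj_natCast_cpow (n : ℕ) (s : ℂ) : conj ((n : ℂ) ^ s) = (n : ℂ) ^ conj s := by
  have h : (n : ℂ).arg ≠ Real.pi := by
    rw [Complex.natCast_arg]
    exact Real.pi_pos.ne
  rw [Complex.cpow_conj _ _ h, Complex.conj_natCast]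

theorem conj_ofReal_cpow {r : ℝ} (hr : 0 ≤ r) (s : ℂ) : conj ((r : ℂ) ^ s) = (r : ℂ) ^ conj s := by
  have h : (r : ℂ).arg ≠ Real.pi := by
    rw [Complex.arg_ofReal_of_nonneg hr]
    exact Real.pi_pos.ne
  rw [Complex.cpow_conj _ _ h, Complex.conj_ofReal]

theorem conj_two : conj (2 : ℂ) = 2 := Complex.conj_ofNat 2

theorem conj_Gammaℝ (s : ℂ) : Complex.Gammaℝ (conj s) = conj (Complex.Gammaℝ s) := by
  have h2 : conj (-s / 2) = -(conj s) / 2 := by rw [map_div₀, map_neg, conj_two]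
  have h3 : conj (s / 2) = conj s / 2 := by rw [map_div₀, conj_two]
  rw [Complex.Gammaℝ_def, Complex.Gammaℝ_def, map_mul, conj_ofReal_cpow Real.pi_pos.le, h2,
    ← Complex.Gamma_conj, h3]

theorem conj_Gammaℂ (s : ℂ) : Complex.Gammaℂ (conj s) = conj (Complex.Gammaℂ s) := by
  have h1 : conj ((2 * (Real.pi : ℂ)) ^ (-s)) = (2 * (Real.pi : ℂ)) ^ (-(conj s)) := by
    have h := conj_ofReal_cpow (r := 2 * Real.pi) (by positivity) (-s)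
    rw [map_neg] at h
    push_cast at h
    exact h
  rw [Complex.Gammaℂ_def, Complex.Gammaℂ_def, map_mul, map_mul, h1, ← Complex.Gamma_conj, conj_two]

theorem conj_gamS (s : ℂ) : gamS K S (conj s) = conj (gamS K S s) := by
  have h1 : conj s + 1 = conj (s + 1) := by rw [map_add, map_one]
  rw [gamS, gamS, map_mul, map_mul, map_pow, map_pow, map_pow, ← conj_Gammaℝ, ← conj_Gammaℝ,
    ← conj_Gammaℂ, h1]

/-- the conjugate `L`-series -/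
theorem tsum_conj (s : ℂ) :
    ∑' I : (Ideal (𝓞 K))⁰, conj (ψ I) * (Ideal.absNorm (I : Ideal (𝓞 K)) : ℂ) ^ (-s) =
      conj (Ls ψ (conj s)) := by
  rw [Ls, Complex.conj_tsum]
  refine tsum_congr fun I => ?_
  rw [map_mul, conj_natCast_cpow, map_neg, Complex.conj_conj]

/-! ### The dual classes -/

section Classes

/-- the modulus as an element of the monoid of nonzero ideals -/
def mU (hm : m ≠ ⊥) : (Ideal (𝓞 K))⁰ := ⟨m, mem_nonZeroDivisors_of_ne_zero hm⟩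

/-- the dual of `J m`, `J` the chosen ideal in the class `C⁻¹` -/
def dU (hm : m ≠ ⊥) (C : ClassGroup (𝓞 K)) : (FractionalIdeal (𝓞 K)⁰ K)ˣ :=
  dualU (FractionalIdeal.mk0 K (JC hm C * mU hm))

theorem coe_dU (hm : m ≠ ⊥) (C : ClassGroup (𝓞 K)) :
    ((dU hm C : (FractionalIdeal (𝓞 K)⁰ K)ˣ) : FractionalIdeal (𝓞 K)⁰ K) =
      dualF (((JC hm C : Ideal (𝓞 K)) * m : Ideal (𝓞 K)) : FractionalIdeal (𝓞 K)⁰ K) := rfl

/-- the class of the integral ideals in the inverse class of the dual ideal -/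
theorem exists_equiv (hm : m ≠ ⊥) : ∃ e : ClassGroup (𝓞 K) ≃ ClassGroup (𝓞 K),
    ∀ (C : ClassGroup (𝓞 K)) (𝔞 : (Ideal (𝓞 K))⁰),
      ClassGroup.mk0 𝔞 * ClassGroup.mk K (dU hm C) = 1 ↔ ClassGroup.mk0 𝔞 = e C := by
  obtain ⟨-, -, -, C₀, hC₀⟩ := zetaSumStmt K
  refine ⟨(Equiv.mulLeft C₀).trans ((Equiv.mulRight (ClassGroup.mk0 (mU hm))⁻¹).trans
    (Equiv.inv _)), fun C 𝔞 => ?_⟩
  have h1 : ClassGroup.mk K (dU hm C) = C₀ * C * (ClassGroup.mk0 (mU hm))⁻¹ := by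
    rw [dU, hC₀, ClassGroup.mk_mk0, map_mul, mk0_JC, mul_inv_rev, inv_inv, mul_assoc,
      mul_comm C]
  rw [h1, mul_eq_one_iff_eq_inv]
  rfl

/-- the sum over the dual classes -/
theorem sum_dual (hm : m ≠ ⊥) {f : (Ideal (𝓞 K))⁰ → ℂ} (hf : Summable f) :
    ∑ C : ClassGroup (𝓞 K), ∑' 𝔞 : Cls (dU hm C), f 𝔞.1 = ∑' 𝔞, f 𝔞 := by
  obtain ⟨e, he⟩ := exists_equiv (K := K) hm
  let σ : (Σ C : ClassGroup (𝓞 K), {𝔞 : (Ideal (𝓞 K))⁰ // ClassGroup.mk0 𝔞 = C}) ≃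
      (Ideal (𝓞 K))⁰ := Equiv.sigmaFiberEquiv (fun I : (Ideal (𝓞 K))⁰ => ClassGroup.mk0 I)
  have hsum : Summable fun c => f (σ c) := (σ.summable_iff).mpr hf
  rw [← σ.tsum_eq, Summable.tsum_sigma hsum, tsum_fintype]
  refine (Finset.sum_congr rfl fun C _ => ?_).trans (Equiv.sum_comp e fun C' : ClassGroup (𝓞 K) =>
    ∑' c : {𝔞 : (Ideal (𝓞 K))⁰ // ClassGroup.mk0 𝔞 = C'}, f (σ ⟨C', c⟩))
  let e' : Cls (dU hm C) ≃ {𝔞 : (Ideal (𝓞 K))⁰ // ClassGroup.mk0 𝔞 = e C} :=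
    Equiv.subtypeEquivRight fun 𝔞 => he C 𝔞
  rw [← e'.tsum_eq]
  rfl

end Classes

/-! ### The two sides -/

theorem nF_pos' {I : Ideal (𝓞 K)} (hI : I ≠ ⊥) : (0 : ℝ) < (Ideal.absNorm I : ℝ) := by
  have : Ideal.absNorm I ≠ 0 := by
    rw [Ne, Ideal.absNorm_eq_zero_iff]
    exact hI
  exact_mod_cast Nat.pos_of_ne_zero this

theorem nF_coe (I : Ideal (𝓞 K)) : nF (I : FractionalIdeal (𝓞 K)⁰ K) = (Ideal.absNorm I : ℝ) := by
  rw [nF, FractionalIdeal.coeIdeal_absNorm]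
  push_cast
  rfl

/-- the norm of the dual ideal -/
theorem nF_dU (hm : m ≠ ⊥) (C : ClassGroup (𝓞 K)) :
    nF ((dU hm C : (FractionalIdeal (𝓞 K)⁰ K)ˣ) : FractionalIdeal (𝓞 K)⁰ K) =
      ((Ideal.absNorm (JC hm C : Ideal (𝓞 K)) : ℝ) * (|(discr K : ℝ)| * Ideal.absNorm m))⁻¹ := by
  have h0 : (JC hm C : Ideal (𝓞 K)) * m ≠ ⊥ :=
    mul_ne_zero (nonZeroDivisors.coe_ne_zero (JC hm C)) hm
  rw [coe_dU, (zetaSumStmt K).2.2.1 _ (FractionalIdeal.coeIdeal_ne_zero.mpr h0), nF_coe, map_mul]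
  push_cast
  congr 1
  ring

theorem ofReal_cpow_ne_zero {r : ℝ} (hr : 0 < r) (s : ℂ) : (r : ℂ) ^ s ≠ 0 := by
  rw [Complex.cpow_ne_zero_iff]
  exact Or.inl (Complex.ofReal_ne_zero.mpr hr.ne')

/-- a term of the dual series -/
theorem term_dual (hm : m ≠ ⊥) (C : ClassGroup (𝓞 K)) (𝔞 : Cls (dU hm C)) (s : ℂ) :
    (((|Algebra.norm ℚ (Classes.gen 𝔞 : K)| : ℚ) : ℂ)) ^ (-s) =
      (((Ideal.absNorm (JC hm C : Ideal (𝓞 K)) : ℝ) : ℂ) ^ s *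
        ((|(discr K : ℝ)| * Ideal.absNorm m : ℝ) : ℂ) ^ s) *
          (Ideal.absNorm (𝔞.1 : Ideal (𝓞 K)) : ℂ) ^ (-s) := by
  have hJ := nF_pos' (nonZeroDivisors.coe_ne_zero (JC hm C))
  have hD : (0 : ℝ) < |(discr K : ℝ)| * Ideal.absNorm m :=
    mul_pos (disc_pos K) (nF_pos' hm)
  have h1 : (((|Algebra.norm ℚ (Classes.gen 𝔞 : K)| : ℚ) : ℂ)) =
      ((Ideal.absNorm (𝔞.1 : Ideal (𝓞 K)) : ℝ) : ℂ) *
        ((((Ideal.absNorm (JC hm C : Ideal (𝓞 K)) : ℝ) *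
          (|(discr K : ℝ)| * Ideal.absNorm m))⁻¹ : ℝ) : ℂ) := by
    rw [Classes.abs_norm_gen, ← nF_dU hm C, nF]
    push_cast
    rfl
  rw [h1, Complex.mul_cpow_ofReal_nonneg (by positivity) (by positivity), mul_comm]
  congr 1
  rw [Complex.ofReal_inv, Complex.inv_cpow, Complex.cpow_neg, inv_inv, Complex.ofReal_mul,
    Complex.mul_cpow_ofReal_nonneg hJ.le hD.le]
  rw [Complex.arg_ofReal_of_nonneg (by positivity)]
  exact Real.pi_pos.ne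

/-- representatives of `J / J m` for the chosen ideals -/
def RC (hm : m ≠ ⊥) (C : ClassGroup (𝓞 K)) : Finset K :=
  (exists_reps_mul hm (JC_coprime hm C)).choose

theorem RC_spec (hm : m ≠ ⊥) (C : ClassGroup (𝓞 K)) : RepsJ m (JC hm C) (RC hm C) :=
  (exists_reps_mul hm (JC_coprime hm C)).choose_spec

/-- a term of the dual series, with the weight -/
theorem term_dual' (hm : m ≠ ⊥) {τ : ℂ}
    (hτ : ∀ J : (Ideal (𝓞 K))⁰, IsCoprime (J : Ideal (𝓞 K)) m → ∀ R : Finset K, RepsJ m J R →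
      ∀ (y : K) (𝔞 : (Ideal (𝓞 K))⁰), GenJ m J y 𝔞 →
        gsJ S m ψ J R y = τ * ψ J * conj (ψ 𝔞) * (sg S y : ℂ))
    (C : ClassGroup (𝓞 K)) (𝔞 : Cls (dU hm C)) (s : ℂ) :
    dwS S (((JC hm C : Ideal (𝓞 K)) * m : Ideal (𝓞 K)) : FractionalIdeal (𝓞 K)⁰ K)
        (wN S m ψ (JC hm C : Ideal (𝓞 K))) (RC hm C) (Classes.gen 𝔞 : K) *
      (sg S (Classes.gen 𝔞 : K) : ℂ) * (((|Algebra.norm ℚ (Classes.gen 𝔞 : K)| : ℚ) : ℂ)) ^ (-s) =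
    ((-Complex.I) ^ S.card * τ * ψ (JC hm C) * (((Ideal.absNorm (JC hm C : Ideal (𝓞 K)) : ℝ) : ℂ) ^ s *
        ((|(discr K : ℝ)| * Ideal.absNorm m : ℝ) : ℂ) ^ s)) *
      (conj (ψ 𝔞.1) * (Ideal.absNorm (𝔞.1 : Ideal (𝓞 K)) : ℂ) ^ (-s)) := by
  have h1 : (Classes.gen 𝔞 : K) ∈
      dualF (((JC hm C : Ideal (𝓞 K)) * m : Ideal (𝓞 K)) : FractionalIdeal (𝓞 K)⁰ K) := by
    rw [← coe_dU]
    exact Classes.gen_mem 𝔞
  have h2 : GenJ m (JC hm C) (Classes.gen 𝔞 : K) 𝔞.1 := by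
    have := Classes.span_gen 𝔞
    rw [coe_dU] at this
    exact this
  have h3 := hτ (JC hm C) (JC_coprime hm C) (RC hm C) (RC_spec hm C) _ _ h2
  have h4 : dw (((JC hm C : Ideal (𝓞 K)) * m : Ideal (𝓞 K)) : FractionalIdeal (𝓞 K)⁰ K)
      (wN S m ψ (JC hm C : Ideal (𝓞 K))) (RC hm C) (Classes.gen 𝔞 : K) =
      gsJ S m ψ (JC hm C) (RC hm C) (Classes.gen 𝔞 : K) := if_pos h1
  have h5 : (sg S (Classes.gen 𝔞 : K) : ℂ) * (sg S (Classes.gen 𝔞 : K) : ℂ) = 1 := by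
    exact_mod_cast sg_sq S (Classes.gen 𝔞).ne_zero
  rw [dwS, h4, h3, term_dual hm C 𝔞 s]
  linear_combination ((-Complex.I) ^ S.card * τ * ψ (JC hm C) * conj (ψ 𝔞.1) *
    ((((Ideal.absNorm (JC hm C : Ideal (𝓞 K)) : ℝ) : ℂ) ^ s *
        ((|(discr K : ℝ)| * Ideal.absNorm m : ℝ) : ℂ) ^ s) *
          (Ideal.absNorm (𝔞.1 : Ideal (𝓞 K)) : ℂ) ^ (-s))) * h5

theorem summable_conj (h : NRayChar m ψ) {s : ℂ} (hs : 1 < s.re) :
    Summable fun I : (Ideal (𝓞 K))⁰ =>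
      conj (ψ I) * (Ideal.absNorm (I : Ideal (𝓞 K)) : ℂ) ^ (-s) := by
  refine Summable.of_norm_bounded (Classes.summable_nrm_ideals hs).norm fun I => ?_
  rw [norm_mul, RCLike.norm_conj]
  exact mul_le_of_le_one_left (norm_nonneg _) (h.norm_le I)

/-- `τ` is the Gauss sum of `ψ` (of infinity type `S`) -/
def IsGauss (S : Finset (RP K)) (m : Ideal (𝓞 K)) (ψ : (Ideal (𝓞 K))⁰ →* ℂ) (τ : ℂ) : Prop :=
  ∀ J : (Ideal (𝓞 K))⁰, IsCoprime (J : Ideal (𝓞 K)) m → ∀ R : Finset K, RepsJ m J R →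
    ∀ (y : K) (𝔞 : (Ideal (𝓞 K))⁰), GenJ m J y 𝔞 →
      gsJ S m ψ J R y = τ * ψ J * conj (ψ 𝔞) * (sg S y : ℂ)

/-- the root number -/
def rootN (S : Finset (RP K)) (m : Ideal (𝓞 K)) (τ : ℂ) : ℂ :=
  (-Complex.I) ^ S.card * τ / ((√(Ideal.absNorm m : ℝ) : ℝ) : ℂ)

theorem rootN_eq (hm : m ≠ ⊥) (τ : ℂ) : (-Complex.I) ^ S.card * τ *
    ((|(discr K : ℝ)| * (Ideal.absNorm m : ℝ) : ℝ) : ℂ) ^ (1 / 2 : ℂ) *
      (((√|(discr K : ℝ)| * (Ideal.absNorm m : ℝ) : ℝ)) : ℂ)⁻¹ = rootN S m τ := by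
  have hd : (0 : ℝ) < |(discr K : ℝ)| := disc_pos K
  have hM : (0 : ℝ) < (Ideal.absNorm m : ℝ) := nF_pos' hm
  have h1 : ((|(discr K : ℝ)| * (Ideal.absNorm m : ℝ) : ℝ) : ℂ) ^ (1 / 2 : ℂ) =
      ((√|(discr K : ℝ)| : ℝ) : ℂ) * ((√(Ideal.absNorm m : ℝ) : ℝ) : ℂ) := by
    have h2 : ((1 / 2 : ℂ)) = (((1 / 2 : ℝ)) : ℂ) := by push_cast; rfl
    rw [h2, ← Complex.ofReal_cpow (mul_pos hd hM).le, ← Real.sqrt_eq_rpow,
      Real.sqrt_mul hd.le, Complex.ofReal_mul]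
  have h3 : ((Ideal.absNorm m : ℝ) : ℂ) =
      ((√(Ideal.absNorm m : ℝ) : ℝ) : ℂ) * ((√(Ideal.absNorm m : ℝ) : ℝ) : ℂ) := by
    rw [← Complex.ofReal_mul, Real.mul_self_sqrt hM.le]
  have h4 : ((√|(discr K : ℝ)| : ℝ) : ℂ) ≠ 0 :=
    Complex.ofReal_ne_zero.mpr (Real.sqrt_pos.mpr hd).ne'
  have h5 : ((√(Ideal.absNorm m : ℝ) : ℝ) : ℂ) ≠ 0 :=
    Complex.ofReal_ne_zero.mpr (Real.sqrt_pos.mpr hM).ne'
  rw [h1, rootN, Complex.ofReal_mul, h3]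
  field_simp

/-- **Hecke's functional equation with the Gauss sum**, from the pieces. -/
theorem funEq_of_gauss (hF : FEStmt K) (hGl : GlueStmt) (hN : NonVanNStmt K) (hm : m ≠ ⊥)
    (h : NRayChar m ψ) (hS : HasS m ψ S) {τ : ℂ} (hτ : IsGauss S m ψ τ)
    (hq : ∃ I : (Ideal (𝓞 K))⁰, IsCoprime (I : Ideal (𝓞 K)) m ∧ ψ I ≠ 1) :
    ‖τ‖ = √(Ideal.absNorm m : ℝ) ∧ ‖rootN S m τ‖ = 1 ∧ ∃ Λ : ℂ → ℂ, Differentiable ℂ Λ ∧
      (∀ s : ℂ, 1 < s.re → Λ s =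
        ((|(discr K : ℝ)| * (Ideal.absNorm m : ℝ) : ℝ) : ℂ) ^ (s / 2) * gamS K S s * Ls ψ s) ∧
      ∀ s, Λ s = rootN S m τ * conj (Λ (1 - conj s)) := by
  obtain ⟨L, hL, hLs, hL1⟩ := hN m hm ψ h hq
  have hJ0 : ∀ C : ClassGroup (𝓞 K), (JC hm C : Ideal (𝓞 K)) ≠ ⊥ := fun C =>
    nonZeroDivisors.coe_ne_zero (JC hm C)
  have hex := fun C : ClassGroup (𝓞 K) => hF S _ _ _ _ (isWtS_wN hm h hS (hJ0 C))
    (isWtS_dwS (isWtS_wN hm h hS (hJ0 C)) (RC_spec hm C))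
    (isInvS_dwS (isWtS_wN hm h hS (hJ0 C)) (RC_spec hm C))
  choose Z Z' hZ hZ' hZs hZs' hfe using hex
  set D : ℝ := |(discr K : ℝ)| * (Ideal.absNorm m : ℝ) with hDdef
  have hD : 0 < D := mul_pos (disc_pos K) (nF_pos' hm)
  have hNJ : ∀ C : ClassGroup (𝓞 K), (0 : ℝ) < (Ideal.absNorm (JC hm C : Ideal (𝓞 K)) : ℝ) :=
    fun C => nF_pos' (hJ0 C)
  have hψJ : ∀ C : ClassGroup (𝓞 K), ψ (JC hm C) ≠ 0 := fun C =>
    ne_zero_of_coprimeN hm hS (JC_coprime hm C)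
  let A : ℂ → ℂ := fun s => (D : ℂ) ^ (s / 2) * ∑ C : ClassGroup (𝓞 K), (ψ (JC hm C))⁻¹ *
    ((Ideal.absNorm (JC hm C : Ideal (𝓞 K)) : ℝ) : ℂ) ^ s * Z C s
  let W : ℂ := (-Complex.I) ^ S.card * τ * (D : ℂ) ^ (1 / 2 : ℂ) *
    (((√|(discr K : ℝ)| * (Ideal.absNorm m : ℝ) : ℝ)) : ℂ)⁻¹
  have hAd : ∀ s, s ≠ 0 → s ≠ 1 → DifferentiableAt ℂ A s := by
    intro s h0 h1
    have e1 : DifferentiableAt ℂ (fun s : ℂ => (D : ℂ) ^ (s / 2)) s :=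
      ((differentiable_id.div_const 2).const_cpow
        (Or.inl (Complex.ofReal_ne_zero.mpr hD.ne'))).differentiableAt
    refine e1.mul (DifferentiableAt.fun_sum fun C _ => ?_)
    have e2 : DifferentiableAt ℂ (fun s : ℂ =>
        ((Ideal.absNorm (JC hm C : Ideal (𝓞 K)) : ℝ) : ℂ) ^ s) s :=
      (differentiable_id.const_cpow
        (Or.inl (Complex.ofReal_ne_zero.mpr (hNJ C).ne'))).differentiableAt
    exact (e2.const_mul _).mul (hZ C s h0 h1)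
  have hA1 : ∀ s : ℂ, 1 < s.re → A s = (D : ℂ) ^ (s / 2) * gamS K S s * L s := by
    intro s hs
    rw [hLs s hs, Ls_eq_sumN hm h hS hs, mul_assoc, Finset.mul_sum]
    change (D : ℂ) ^ (s / 2) * _ = _
    congr 1
    refine Finset.sum_congr rfl fun C _ => ?_
    rw [hZs C _ _ (isGen_gen (FractionalIdeal.mk0 K (JC hm C))) s hs]
    push_cast
    ring
  have hA2 : ∀ s : ℂ, s.re < 0 →
      A s = W * ((D : ℂ) ^ ((1 - s) / 2) * gamS K S (1 - s) * conj (L (conj (1 - s)))) := by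
    intro s hs
    have hs' : 1 < (1 - s).re := by
      rw [Complex.sub_re, Complex.one_re]
      linarith
    have hs0 : s ≠ 0 := by
      rintro rfl
      simp at hs
    have hs1 : s ≠ 1 := by
      rintro rfl
      norm_num at hs
    have hsc : 1 < (conj (1 - s)).re := by rwa [Complex.conj_re]
    rw [hLs _ hsc, ← tsum_conj, ← sum_dual hm (summable_conj h hs')]
    change (D : ℂ) ^ (s / 2) * ∑ C : ClassGroup (𝓞 K), (ψ (JC hm C))⁻¹ *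
      ((Ideal.absNorm (JC hm C : Ideal (𝓞 K)) : ℝ) : ℂ) ^ s * Z C s = _
    rw [Finset.mul_sum, Finset.mul_sum, Finset.mul_sum]
    refine Finset.sum_congr rfl fun C _ => ?_
    have e1 := hZs' C _ _ (isGen_gen (dU hm C)) (1 - s) hs'
    rw [tsum_congr fun 𝔞 => term_dual' hm hτ C 𝔞 (1 - s), tsum_mul_left] at e1
    have e2 : nF (((JC hm C : Ideal (𝓞 K)) * m : Ideal (𝓞 K)) : FractionalIdeal (𝓞 K)⁰ K) =
        (Ideal.absNorm (JC hm C : Ideal (𝓞 K)) : ℝ) * (Ideal.absNorm m : ℝ) := by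
      rw [nF_coe, map_mul]
      push_cast
      rfl
    rw [hfe C s hs0 hs1, e1, e2]
    have hN0 : ((Ideal.absNorm (JC hm C : Ideal (𝓞 K)) : ℝ) : ℂ) ≠ 0 :=
      Complex.ofReal_ne_zero.mpr (hNJ C).ne'
    have hD0 : (D : ℂ) ≠ 0 := Complex.ofReal_ne_zero.mpr hD.ne'
    have k1 : ((Ideal.absNorm (JC hm C : Ideal (𝓞 K)) : ℝ) : ℂ) ^ s *
        ((Ideal.absNorm (JC hm C : Ideal (𝓞 K)) : ℝ) : ℂ) ^ (1 - s) =
        ((Ideal.absNorm (JC hm C : Ideal (𝓞 K)) : ℝ) : ℂ) := by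
      rw [← Complex.cpow_add _ _ hN0, add_sub_cancel, Complex.cpow_one]
    have k2 : (D : ℂ) ^ (s / 2) * (D : ℂ) ^ (1 - s) =
        (D : ℂ) ^ (1 / 2 : ℂ) * (D : ℂ) ^ ((1 - s) / 2) := by
      rw [← Complex.cpow_add _ _ hD0, ← Complex.cpow_add _ _ hD0]
      congr 1
      ring
    have k3 : (ψ (JC hm C))⁻¹ * ψ (JC hm C) = 1 := inv_mul_cancel₀ (hψJ C)
    have k4 : ((Ideal.absNorm (JC hm C : Ideal (𝓞 K)) : ℝ) : ℂ) *
        ((Ideal.absNorm (JC hm C : Ideal (𝓞 K)) : ℝ) : ℂ)⁻¹ = 1 := mul_inv_cancel₀ hN0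
    change _ = (-Complex.I) ^ S.card * τ * (D : ℂ) ^ (1 / 2 : ℂ) *
      (((√|(discr K : ℝ)| * (Ideal.absNorm m : ℝ) : ℝ)) : ℂ)⁻¹ * _
    rw [Complex.ofReal_mul (√|(discr K : ℝ)|), Complex.ofReal_mul (√|(discr K : ℝ)|),
      Complex.ofReal_mul (Ideal.absNorm (JC hm C : Ideal (𝓞 K)) : ℝ), mul_inv, mul_inv, mul_inv]
    generalize ∑' 𝔞 : Cls (dU hm C), conj (ψ 𝔞.1) *
      (Ideal.absNorm (𝔞.1 : Ideal (𝓞 K)) : ℂ) ^ (-(1 - s)) = T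
    generalize ((Ideal.absNorm (JC hm C : Ideal (𝓞 K)) : ℝ) : ℂ) ^ s = a at k1 ⊢
    generalize ((Ideal.absNorm (JC hm C : Ideal (𝓞 K)) : ℝ) : ℂ) ^ (1 - s) = b at k1 ⊢
    generalize ((Ideal.absNorm (JC hm C : Ideal (𝓞 K)) : ℝ) : ℂ) = N at k1 k4 ⊢
    generalize (D : ℂ) ^ (s / 2) = p at k2 ⊢
    generalize (D : ℂ) ^ (1 - s) = q at k2 ⊢
    generalize (D : ℂ) ^ (1 / 2 : ℂ) = r at k2 ⊢
    generalize (D : ℂ) ^ ((1 - s) / 2) = u at k2 ⊢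
    generalize (ψ (JC hm C))⁻¹ = v at k3 ⊢
    generalize ψ (JC hm C) = v' at k3 ⊢
    generalize (((√|(discr K : ℝ)| : ℝ)) : ℂ)⁻¹ = d
    generalize (((Ideal.absNorm m : ℝ)) : ℂ)⁻¹ = M
    generalize gamS K S (1 - s) = g
    generalize (-Complex.I) ^ S.card = i
    generalize N⁻¹ = N' at k4 ⊢
    calc p * (v * a * (d * (N' * M) * (g * (i * τ * v' * (b * q) * T))))
        = (p * q) * (a * b * N') * (v * v') * (d * M * g * i * τ * T) := by ring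
      _ = i * τ * r * (d * M) * (u * g * T) := by
        rw [k2, k1, k4, k3]
        ring
  obtain ⟨hW, Λ, hΛ, hΛ1, hΛ2⟩ := hGl (gamS K S) L A W D hD hL (fun s hs => gamS_ne_zero S hs)
    (differentiable_gSi S) conj_gamS hAd hA1 hA2 ⟨2, by norm_num, hL1 2 (by norm_num)⟩
  have hWr : W = rootN S m τ := rootN_eq hm τ
  rw [hWr] at hW hΛ2
  refine ⟨?_, hW, Λ, hΛ, fun s hs => ?_, hΛ2⟩
  · have hM : (0 : ℝ) < √(Ideal.absNorm m : ℝ) := Real.sqrt_pos.mpr (nF_pos' hm)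
    rw [rootN, norm_div, norm_mul, norm_pow, norm_neg, Complex.norm_I, one_pow, one_mul,
      Complex.norm_real, Real.norm_of_nonneg hM.le, div_eq_one_iff_eq hM.ne'] at hW
    exact hW
  · rw [hΛ1 s (by linarith), hLs s hs]

/-- **Hecke's functional equation**, from the pieces. -/
theorem funEqStmt_of (hG : GaussStmt K) (hF : FEStmt K) (hGl : GlueStmt) (hN : NonVanNStmt K) :
    FunEqStmt K := by
  intro m hm ψ h hp hq
  obtain ⟨S, hS⟩ := h.exists_S hm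
  obtain ⟨τ, hτ⟩ := hG S m ψ ⟨hm, h, hS⟩ hp
  obtain ⟨-, hW, Λ, hΛ⟩ := funEq_of_gauss hF hGl hN hm h hS hτ hq
  exact ⟨S, rootN S m τ, Λ, hW, hΛ⟩

end Fermat.Agent.Cor.RayF
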