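import Fermat.Agent.Corollaries.RayF.Final
import Fermat.Agent.Corollaries.ZetaK.XiLower

/-!
# Growth of the completed Hecke `L`-functions

`stripBdd_L`: `s (1 - s) Λ(s, ψ) = O((1 + |s|)²)` on `-1 ≤ Re s ≤ 2`;
`hasGrowth_L`: `s (1 - s) Λ(s, ψ)` is an entire function of order less than two;
`exists_lt_norm_L`: it grows faster than every exponential on the positive real axis.
-/

set_option autoImplicit false
set_option linter.unusedSectionVars false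

noncomputable section

namespace Fermat.Agent.Cor.RayF

open NumberField NumberField.InfinitePlace NumberField.Units MeasureTheory Set Filter Topology
open Fermat.Agent.Classic.Zeta Fermat.Agent.Cor.Ray Fermat.Agent.Cor.RayN
open scoped nonZeroDivisors ComplexConjugate Classical

universe u

/-! ### Bounds on the strip -/

/-- at most quadratic growth on the strip `-1 ≤ Re s ≤ 2`, with at most simple poles at `0`, `1` -/
def StripBdd (Z : ℂ → ℂ) : Prop :=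
  ∃ C : ℝ, 0 ≤ C ∧ ∀ s : ℂ, s ≠ 0 → s ≠ 1 → -1 ≤ s.re → s.re ≤ 2 →
    ‖s * (1 - s) * Z s‖ ≤ C * (1 + ‖s‖) ^ 2

theorem stripBdd_pair (P : WeakFEPair ℂ) {n : ℕ} (hn : n ≠ 0) (hk : P.k = (n : ℝ)) (c : ℂ) :
    StripBdd fun s => c⁻¹ * P.Λ ((n : ℂ) * s) := by
  have hn' : (0 : ℝ) < n := by exact_mod_cast Nat.pos_of_ne_zero hn
  obtain ⟨C, hC, h⟩ := exists_bound_xiPair P hn' one_pos one_pos c
  refine ⟨C, hC, fun s h0 h1 h2 h3 => ?_⟩
  have h4 := h s h2 h3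
  rw [xiPair, xiOf_eq P hn' hk h0 h1, Complex.ofReal_one, Complex.one_cpow, Complex.one_cpow,
    one_mul, one_mul, Complex.ofReal_natCast] at h4
  have h5 : s * (1 - s) * (c⁻¹ * P.Λ ((n : ℂ) * s)) = c⁻¹ * (s * (1 - s) * P.Λ ((n : ℂ) * s)) := by
    ring
  rw [h5]
  exact h4

theorem StripBdd.mul_bdd {Z f : ℂ → ℂ} (h : StripBdd Z) {M : ℝ}
    (hf : ∀ s : ℂ, -1 ≤ s.re → s.re ≤ 2 → ‖f s‖ ≤ M) : StripBdd fun s => f s * Z s := by
  obtain ⟨C, hC, h⟩ := h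
  have hM : 0 ≤ M := (norm_nonneg _).trans (hf 0 (by simp) (by simp))
  refine ⟨M * C, by positivity, fun s h0 h1 h2 h3 => ?_⟩
  have h4 : s * (1 - s) * (f s * Z s) = f s * (s * (1 - s) * Z s) := by ring
  rw [h4, norm_mul, mul_assoc M C]
  exact mul_le_mul (hf s h2 h3) (h s h0 h1 h2 h3) (norm_nonneg _) hM

theorem StripBdd.sum {ι : Type*} (T : Finset ι) {Z : ι → ℂ → ℂ} (h : ∀ i, StripBdd (Z i)) :
    StripBdd fun s => ∑ i ∈ T, Z i s := by
  choose C hC h using h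
  refine ⟨∑ i ∈ T, C i, Finset.sum_nonneg fun i _ => hC i, fun s h0 h1 h2 h3 => ?_⟩
  rw [Finset.mul_sum, Finset.sum_mul]
  exact norm_sum_le_of_le _ fun i _ => h i s h0 h1 h2 h3

theorem norm_cpow_strip {r : ℝ} (hr : 0 < r) {s : ℂ} (h1 : -1 ≤ s.re) (h2 : s.re ≤ 2) :
    ‖(r : ℂ) ^ s‖ ≤ Real.exp (|Real.log r| * 2) :=
  norm_ofReal_cpow_le hr (by
    rw [abs_le]
    constructor <;> linarith)

theorem re_half (s : ℂ) : (s / 2).re = s.re / 2 := by
  rw [show (s / 2 : ℂ) = ((2⁻¹ : ℝ) : ℂ) * s by push_cast; ring, Complex.re_ofReal_mul]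
  ring

variable {K : Type u} [Field K] [NumberField K] {S : Finset (RP K)} {m : Ideal (𝓞 K)}
  {ψ : (Ideal (𝓞 K))⁰ →* ℂ}

/-- the continuation of the weighted zeta functions, with the bound on the strip -/
theorem exists_stripBdd (S : Finset (RP K)) (𝔟 𝔠 : FractionalIdeal (𝓞 K)⁰ K) (φ : K → ℂ)
    (hφ : IsWtS S 𝔟 𝔠 φ) : ∃ Z : ℂ → ℂ, (∀ s, s ≠ 0 → s ≠ 1 → DifferentiableAt ℂ Z s) ∧
      StripBdd Z ∧ ∀ (ι : Type u) (g : ι → K), IsGen 𝔟 g → ∀ s : ℂ, 1 < s.re →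
        Z s = gamS K S s * ∑' i, φ (g i) * (sg S (g i) : ℂ) *
          (((|Algebra.norm ℚ (g i)| : ℚ) : ℂ)) ^ (-s) := by
  obtain ⟨φ', hφ', hI⟩ := thetaSStmt K S 𝔟 𝔠 φ hφ
  obtain ⟨β, hβ⟩ := (torusStmt (thetaStmt K)).1
  have hn : Module.finrank ℚ K ≠ 0 := Module.finrank_pos.ne'
  have hk : ∀ {s : ℂ}, 1 < s.re →
      (Module.finrank ℚ K : ℝ) < ((Module.finrank ℚ K : ℂ) * s).re := fun {s} hs => by
    have hn : (0 : ℝ) < (Module.finrank ℚ K : ℝ) := finrank_pos' K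
    rw [← Complex.ofReal_natCast, Complex.re_ofReal_mul]
    nlinarith
  by_cases hS : S.Nonempty
  · obtain ⟨c, hc, hM⟩ := mellinSStmt K S hS
    have hc' : (c : ℂ) ≠ 0 := by exact_mod_cast hc.ne'
    set P : WeakFEPair ℂ := feS hS hβ (torusSStmt K) (decaySStmt K) hφ hφ' hI with hP
    obtain ⟨h1, -, -⟩ := pair_aux P hn rfl (c : ℂ)
    refine ⟨_, fun s h0 h0' => h1 s (Or.inl h0) (Or.inl h0'), stripBdd_pair P hn rfl (c : ℂ), ?_⟩
    intro ι g hg s hs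
    obtain ⟨-, hmel⟩ := hM β hβ 𝔟 𝔠 φ hφ ι g hg s hs
    have h4 : mellin (fun x : ℝ => FS S β φ x - 0) ((Module.finrank ℚ K : ℂ) * s) =
      P.Λ ((Module.finrank ℚ K : ℂ) * s) := (P.hasMellin (hk hs)).2
    simp only [sub_zero] at h4
    rw [← h4, hmel]
    field_simp
  · rw [Finset.not_nonempty_iff_eq_empty] at hS
    subst hS
    obtain ⟨c, hc, hM⟩ := mellinWStmt (unfoldWStmt K)
    have hc' : (c : ℂ) ≠ 0 := by exact_mod_cast hc.ne'
    set P : WeakFEPair ℂ := feW hβ (torusWStmt K) (decayWStmt K) (isWt_of_empty hφ)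
      (isWt_of_empty hφ') (isInv_of_empty hI) with hP
    obtain ⟨h1, -, -⟩ := pair_aux P hn rfl (c : ℂ)
    have hsg : ∀ (ψ : K → ℂ) (x : K) (z : ℂ), ψ x * (sg ∅ x : ℂ) * z = ψ x * z := fun ψ x z => by
      rw [sg_empty, Complex.ofReal_one, mul_one]
    refine ⟨_, fun s h0 h0' => h1 s (Or.inl h0) (Or.inl h0'), stripBdd_pair P hn rfl (c : ℂ), ?_⟩
    intro ι g hg s hs
    obtain ⟨-, hmel⟩ := hM β hβ 𝔟 𝔠 φ (isWt_of_empty hφ) ι g hg s hs
    have h4 : mellin (fun x : ℝ => Fw β φ x - φ 0 * (B β : ℂ)) ((Module.finrank ℚ K : ℂ) * s) =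
      P.Λ ((Module.finrank ℚ K : ℂ) * s) := (P.hasMellin (hk hs)).2
    simp only [hsg, gamS_empty]
    rw [← h4, hmel]
    field_simp

/-- the constant of the functional equation -/
def DC (m : Ideal (𝓞 K)) : ℝ := |(discr K : ℝ)| * (Ideal.absNorm m : ℝ)

theorem DC_pos (hm : m ≠ ⊥) : 0 < DC m := mul_pos (disc_pos K) (nF_pos' hm)

theorem one_le_DC (hm : m ≠ ⊥) : 1 ≤ DC m := by
  have h1 : (1 : ℝ) ≤ (Ideal.absNorm m : ℝ) := by
    have := nF_pos' hm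
    have h2 : 0 < Ideal.absNorm m := by exact_mod_cast this
    exact_mod_cast h2
  have h3 := one_le_absDisc K
  unfold DC
  nlinarith

/-- **Bound on the strip** for the completed `L`-function. -/
theorem stripBdd_L (hm : m ≠ ⊥) (h : NRayChar m ψ) (hS : HasS m ψ S) {Λ : ℂ → ℂ}
    (hΛ : Differentiable ℂ Λ)
    (h1 : ∀ s : ℂ, 1 < s.re → Λ s = (DC m : ℂ) ^ (s / 2) * gamS K S s * Ray.Ls ψ s) :
    StripBdd Λ := by
  have hJ0 : ∀ C : ClassGroup (𝓞 K), (JC hm C : Ideal (𝓞 K)) ≠ ⊥ := fun C =>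
    nonZeroDivisors.coe_ne_zero (JC hm C)
  have hex := fun C : ClassGroup (𝓞 K) => exists_stripBdd S _ _ _ (isWtS_wN hm h hS (hJ0 C))
  choose Z hZ hZb hZs using hex
  have hD : 0 < DC m := DC_pos hm
  have hNJ : ∀ C : ClassGroup (𝓞 K), (0 : ℝ) < (Ideal.absNorm (JC hm C : Ideal (𝓞 K)) : ℝ) :=
    fun C => nF_pos' (hJ0 C)
  let A : ℂ → ℂ := fun s => (DC m : ℂ) ^ (s / 2) * ∑ C : ClassGroup (𝓞 K), ((ψ (JC hm C))⁻¹ *
    ((Ideal.absNorm (JC hm C : Ideal (𝓞 K)) : ℝ) : ℂ) ^ s) * Z C s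
  have hAd : ∀ s, s ≠ 0 → s ≠ 1 → DifferentiableAt ℂ A s := by
    intro s h0 h1
    have e1 : DifferentiableAt ℂ (fun s : ℂ => (DC m : ℂ) ^ (s / 2)) s :=
      ((differentiable_id.div_const 2).const_cpow
        (Or.inl (Complex.ofReal_ne_zero.mpr hD.ne'))).differentiableAt
    refine e1.mul (DifferentiableAt.fun_sum fun C _ => ?_)
    have e2 : DifferentiableAt ℂ (fun s : ℂ =>
        ((Ideal.absNorm (JC hm C : Ideal (𝓞 K)) : ℝ) : ℂ) ^ s) s :=
      (differentiable_id.const_cpow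
        (Or.inl (Complex.ofReal_ne_zero.mpr (hNJ C).ne'))).differentiableAt
    exact (e2.const_mul _).mul (hZ C s h0 h1)
  have hA1 : ∀ s : ℂ, 1 < s.re → A s = Λ s := by
    intro s hs
    rw [h1 s hs, Ls_eq_sumN hm h hS hs, mul_assoc, Finset.mul_sum]
    change (DC m : ℂ) ^ (s / 2) * _ = _
    congr 1
    refine Finset.sum_congr rfl fun C _ => ?_
    rw [hZs C _ _ (isGen_gen (FractionalIdeal.mk0 K (JC hm C))) s hs]
    push_cast
    ring
  have hAΛ : ∀ s, s ≠ 0 → s ≠ 1 → A s = Λ s := fun s h0 h1 =>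
    Glue.eq_of_eqOn hAd (fun s _ _ => hΛ s) (Glue.isOpen_re_gt 1) (z := 2) (by simp) (by norm_num)
      (by norm_num) hA1 h0 h1
  have hAb : StripBdd A := by
    refine StripBdd.mul_bdd (M := Real.exp (|Real.log (DC m)| * 2)) (StripBdd.sum _ fun C => ?_) ?_
    · refine (hZb C).mul_bdd (M := ‖(ψ (JC hm C))⁻¹‖ *
        Real.exp (|Real.log (Ideal.absNorm (JC hm C : Ideal (𝓞 K)) : ℝ)| * 2)) fun s h2 h3 => ?_
      rw [norm_mul]
      exact mul_le_mul_of_nonneg_left (norm_cpow_strip (hNJ C) h2 h3) (norm_nonneg _)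
    · intro s h2 h3
      refine norm_cpow_strip hD ?_ ?_
      · rw [re_half]
        linarith
      · rw [re_half]
        linarith
  obtain ⟨C, hC, hb⟩ := hAb
  refine ⟨C, hC, fun s h2 h3 h4 h5 => ?_⟩
  rw [← hAΛ s h2 h3]
  exact hb s h2 h3 h4 h5

/-! ### The right half-plane -/

theorem norm_Gammaℝ_add_one_le {s : ℂ} (hs : 2 ≤ s.re) :
    ‖Complex.Gammaℝ (s + 1)‖ ≤ Real.exp (8 * grw ‖s‖) := by
  have h1 : 2 ≤ (s + 1).re := by
    rw [Complex.add_re, Complex.one_re]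
    linarith
  refine (norm_Gammaℝ_le h1).trans (Real.exp_le_exp.mpr ?_)
  have h2 : ‖s + 1‖ ≤ 1 + ‖s‖ := by
    refine (norm_add_le _ _).trans ?_
    rw [norm_one, add_comm]
  have h3 := (grw_mono (norm_nonneg _) h2).trans (grw_one_add_le (norm_nonneg s))
  linarith

theorem norm_gamS_le (S : Finset (RP K)) {s : ℂ} (hs : 2 ≤ s.re) : ‖gamS K S s‖ ≤
    Real.exp ((2 * (nrRealPlaces K - S.card : ℕ) + 8 * S.card + 2 * nrComplexPlaces K : ℝ) *
      grw ‖s‖) := by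
  rw [gamS, norm_mul, norm_mul, norm_pow, norm_pow, norm_pow]
  calc ‖Complex.Gammaℝ s‖ ^ (nrRealPlaces K - S.card) * ‖Complex.Gammaℝ (s + 1)‖ ^ S.card *
        ‖Complex.Gammaℂ s‖ ^ nrComplexPlaces K
      ≤ Real.exp (2 * grw ‖s‖) ^ (nrRealPlaces K - S.card) * Real.exp (8 * grw ‖s‖) ^ S.card *
        Real.exp (2 * grw ‖s‖) ^ nrComplexPlaces K := by
        gcongr
        · exact norm_Gammaℝ_le hs
        · exact norm_Gammaℝ_add_one_le hs
        · exact norm_Gammaℂ_le hs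
    _ = _ := by
        rw [← Real.exp_nat_mul, ← Real.exp_nat_mul, ← Real.exp_nat_mul, ← Real.exp_add,
          ← Real.exp_add]
        congr 1
        ring

theorem norm_Ls_term_le (h : NRayChar m ψ) (I : (Ideal (𝓞 K))⁰) {s : ℂ} (hs : 2 ≤ s.re) :
    ‖ψ I * (Ideal.absNorm (I : Ideal (𝓞 K)) : ℂ) ^ (-s)‖ ≤
      ‖(Ideal.absNorm (I : Ideal (𝓞 K)) : ℂ) ^ (-(2 : ℂ))‖ := by
  rw [norm_mul]
  exact (mul_le_of_le_one_left (norm_nonneg _) (h.norm_le I)).trans (norm_term_le I hs)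

theorem exists_bound_Ls (h : NRayChar m ψ) : ∃ Z : ℝ, 0 ≤ Z ∧
    ∀ s : ℂ, 2 ≤ s.re → ‖Ray.Ls ψ s‖ ≤ Z := by
  have h2 : (1 : ℝ) < (2 : ℂ).re := by norm_num
  have hsum := summable_norm_ideals (K := K) h2
  refine ⟨∑' I : (Ideal (𝓞 K))⁰, ‖(Ideal.absNorm (I : Ideal (𝓞 K)) : ℂ) ^ (-(2 : ℂ))‖,
    tsum_nonneg fun _ => norm_nonneg _, fun s hs => ?_⟩
  have hs1 : Summable fun I : (Ideal (𝓞 K))⁰ =>
      ‖ψ I * (Ideal.absNorm (I : Ideal (𝓞 K)) : ℂ) ^ (-s)‖ :=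
    Summable.of_nonneg_of_le (fun _ => norm_nonneg _) (fun I => norm_Ls_term_le h I hs) hsum
  rw [Ray.Ls]
  exact (norm_tsum_le_tsum_norm hs1).trans
    (Summable.tsum_le_tsum (fun I => norm_Ls_term_le h I hs) hs1 hsum)

/-- the value of the `L`-series tends to `1` on the right -/
theorem tendsto_Ls (h : NRayChar m ψ) :
    Tendsto (fun n : ℕ => Ray.Ls ψ ((2 * n + 2 : ℝ) : ℂ)) atTop (𝓝 1) := by
  have h2 : (1 : ℝ) < (2 : ℂ).re := by norm_num
  have key := tendsto_tsum_of_dominated_convergence (𝓕 := (atTop : Filter ℕ))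
    (f := fun (n : ℕ) (I : (Ideal (𝓞 K))⁰) =>
      ψ I * (Ideal.absNorm (I : Ideal (𝓞 K)) : ℂ) ^ (-((2 * n + 2 : ℝ) : ℂ)))
    (g := fun I : (Ideal (𝓞 K))⁰ => ψ I * if I = 1 then (1 : ℂ) else 0)
    (summable_norm_ideals (K := K) h2)
    (fun I => (tendsto_term I).const_mul (ψ I))
    (Eventually.of_forall fun n I => norm_Ls_term_le h I (by
      rw [Complex.ofReal_re]
      have : (0 : ℝ) ≤ n := Nat.cast_nonneg n
      linarith))
  have hlim : (∑' I : (Ideal (𝓞 K))⁰, ψ I * if I = 1 then (1 : ℂ) else 0) = 1 := by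
    rw [tsum_eq_single (1 : (Ideal (𝓞 K))⁰)]
    · rw [if_pos rfl, map_one, mul_one]
    · intro I hI
      rw [if_neg hI, mul_zero]
  rw [hlim] at key
  exact key

/-! ### Growth -/

/-- **`s (1 - s) Λ(s, ψ)` has order less than two.** -/
theorem hasGrowth_L (hm : m ≠ ⊥) (h : NRayChar m ψ) (hS : HasS m ψ S) {Λ : ℂ → ℂ} {W : ℂ}
    (hΛ : Differentiable ℂ Λ) (hW : ‖W‖ = 1)
    (h1 : ∀ s : ℂ, 1 < s.re → Λ s = (DC m : ℂ) ^ (s / 2) * gamS K S s * Ray.Ls ψ s)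
    (hfe : ∀ s, Λ s = W * conj (Λ (1 - conj s))) :
    HasGrowth fun s => s * (1 - s) * Λ s := by
  obtain ⟨B, hB0, hB⟩ := stripBdd_L hm h hS hΛ h1
  obtain ⟨Z, hZ0, hZ⟩ := exists_bound_Ls h
  set L : ℝ := |Real.log (DC m)| with hL
  set g : ℝ := (2 * (nrRealPlaces K - S.card : ℕ) + 8 * S.card + 2 * nrComplexPlaces K : ℝ)
    with hg
  have hL0 : 0 ≤ L := abs_nonneg _
  have hg0 : 0 ≤ g := by
    have g1 : (0 : ℝ) ≤ ((nrRealPlaces K - S.card : ℕ) : ℝ) := Nat.cast_nonneg _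
    have g2 : (0 : ℝ) ≤ (S.card : ℝ) := Nat.cast_nonneg _
    have g3 : (0 : ℝ) ≤ (nrComplexPlaces K : ℝ) := Nat.cast_nonneg _
    linarith
  set A : ℝ := 2 + L + g with hA
  have hA0 : 0 ≤ A := by linarith
  have hright : ∀ s : ℂ, 2 ≤ s.re → ‖s * (1 - s) * Λ s‖ ≤ Z * Real.exp (A * grw ‖s‖) := by
    intro s hs
    have hs0 := norm_nonneg s
    have hgr := le_grw hs0
    have hre : s.re ≤ ‖s‖ := Complex.re_le_norm s
    rw [h1 s (by linarith), norm_mul, norm_mul, norm_mul, norm_mul]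
    have e1 : ‖s‖ * ‖1 - s‖ ≤ Real.exp (2 * grw ‖s‖) := by
      have h2 : ‖1 - s‖ ≤ 1 + ‖s‖ := by
        refine (norm_sub_le _ _).trans ?_
        rw [norm_one]
      calc ‖s‖ * ‖1 - s‖ ≤ (1 + ‖s‖) * (1 + ‖s‖) := by
            gcongr
            linarith
        _ = (1 + ‖s‖) ^ 2 := by ring
        _ ≤ _ := one_add_sq_le_exp hs0
    have e2 : ‖(DC m : ℂ) ^ (s / 2)‖ ≤ Real.exp (L * grw ‖s‖) := by
      refine norm_ofReal_cpow_le (DC_pos hm) ?_
      rw [re_half, abs_le]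
      constructor <;> linarith
    have e3 : ‖gamS K S s‖ ≤ Real.exp (g * grw ‖s‖) := norm_gamS_le S hs
    have e4 := hZ s hs
    calc ‖s‖ * ‖1 - s‖ * (‖(DC m : ℂ) ^ (s / 2)‖ * ‖gamS K S s‖ * ‖Ray.Ls ψ s‖)
        ≤ Real.exp (2 * grw ‖s‖) * (Real.exp (L * grw ‖s‖) * Real.exp (g * grw ‖s‖) * Z) := by
          gcongr
      _ = Z * (Real.exp (2 * grw ‖s‖) * Real.exp (L * grw ‖s‖) * Real.exp (g * grw ‖s‖)) := by
          ring
      _ = Z * Real.exp (A * grw ‖s‖) := by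
          rw [← Real.exp_add, ← Real.exp_add]
          congr 2
          rw [hA]
          ring
  refine hasGrowth_of_le (C := B + Z) (A := 2 + 4 * A) fun s => ?_
  have hs0 := norm_nonneg s
  have hg1 := one_le_grw hs0
  have hgp : 0 ≤ grw ‖s‖ := by linarith
  have hup : ∀ {M A' : ℝ}, 0 ≤ M → M ≤ B + Z → A' ≤ 2 + 4 * A →
      M * Real.exp (A' * grw ‖s‖) ≤ (B + Z) * Real.exp ((2 + 4 * A) * grw ‖s‖) := by
    intro M A' hM hM' hA'
    refine mul_le_mul hM' (Real.exp_le_exp.mpr ?_) (Real.exp_nonneg _) (by linarith)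
    exact mul_le_mul_of_nonneg_right hA' hgp
  rcases le_or_gt 2 s.re with h2 | h2
  · exact (hright s h2).trans (hup hZ0 (by linarith) (by linarith))
  rcases le_or_gt (-1) s.re with h3 | h3
  · have h4 : ‖s * (1 - s) * Λ s‖ ≤ B * (1 + ‖s‖) ^ 2 := by
      by_cases e0 : s = 0
      · subst e0
        rw [zero_mul, zero_mul, norm_zero]
        positivity
      by_cases e1 : s = 1
      · subst e1
        rw [sub_self, mul_zero, zero_mul, norm_zero]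
        positivity
      exact hB s e0 e1 h3 h2.le
    refine h4.trans ?_
    refine le_trans ?_ (hup hB0 (by linarith) (by linarith : (2 : ℝ) ≤ 2 + 4 * A))
    exact mul_le_mul_of_nonneg_left (one_add_sq_le_exp hs0) hB0
  · have h4 : 2 ≤ (1 - conj s).re := by
      rw [Complex.sub_re, Complex.one_re, Complex.conj_re]
      linarith
    have h5 : ‖s * (1 - s) * Λ s‖ =
        ‖(1 - conj s) * (1 - (1 - conj s)) * Λ (1 - conj s)‖ := by
      rw [hfe s, norm_mul, norm_mul, norm_mul, hW, one_mul, RCLike.norm_conj, sub_sub_cancel,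
        norm_mul, norm_mul, RCLike.norm_conj]
      have h6 : ‖(1 : ℂ) - conj s‖ = ‖1 - s‖ := by
        rw [← RCLike.norm_conj (1 - s), map_sub, map_one]
      rw [h6]
      ring
    rw [h5]
    refine (hright _ h4).trans ?_
    refine le_trans ?_ (hup hZ0 (by linarith) (by linarith : 4 * A ≤ 2 + 4 * A))
    refine mul_le_mul_of_nonneg_left (Real.exp_le_exp.mpr ?_) hZ0
    have h6 : ‖1 - conj s‖ ≤ 1 + ‖s‖ := by
      refine (norm_sub_le _ _).trans ?_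
      rw [norm_one, RCLike.norm_conj]
    have h7 := (grw_mono (norm_nonneg _) h6).trans (grw_one_add_le hs0)
    calc A * grw ‖1 - conj s‖ ≤ A * (4 * grw ‖s‖) := mul_le_mul_of_nonneg_left h7 hA0
      _ = 4 * A * grw ‖s‖ := by ring

/-! ### The lower bound -/

theorem norm_Gammaℝ_odd (n : ℕ) : ‖Complex.Gammaℝ ((2 * n + 2 : ℝ) + 1 : ℂ)‖ =
    Real.pi ^ (-(n + 3 / 2) : ℝ) * Real.Gamma (n + 3 / 2) := by
  rw [Complex.Gammaℝ_def, norm_mul, Complex.norm_cpow_eq_rpow_re_of_pos Real.pi_pos]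
  have h1 : -((2 * n + 2 : ℝ) + 1 : ℂ) / 2 = ((-(n + 3 / 2) : ℝ) : ℂ) := by
    push_cast
    ring
  have h2 : ((2 * n + 2 : ℝ) + 1 : ℂ) / 2 = ((n + 3 / 2 : ℝ) : ℂ) := by
    push_cast
    ring
  rw [h1, h2, Complex.ofReal_re, Complex.Gamma_ofReal, Complex.norm_real, Real.norm_of_nonneg]
  exact (Real.Gamma_pos_of_pos (by positivity)).le

theorem eventually_exp_le_Gammaℝ_odd (B : ℝ) :
    ∀ᶠ n : ℕ in atTop, Real.exp (B * n) ≤ ‖Complex.Gammaℝ ((2 * n + 2 : ℝ) + 1 : ℂ)‖ := by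
  have hpi := Real.pi_gt_three
  have hpi4 := Real.pi_lt_four
  filter_upwards [eventually_exp_le_Gammaℝ (B + 1), eventually_ge_atTop 1] with n hn hn1
  have hn1' : (1 : ℝ) ≤ n := by exact_mod_cast hn1
  rw [norm_Gammaℝ_even] at hn
  rw [norm_Gammaℝ_odd]
  have h1 : ((n.factorial : ℕ) : ℝ) ≤ Real.Gamma (n + 3 / 2) := by
    rw [← Real.Gamma_nat_eq_factorial]
    refine Real.Gamma_strictMonoOn_Ici.monotoneOn ?_ ?_ ?_
    · simp only [mem_Ici]; linarith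
    · simp only [mem_Ici]; linarith
    · linarith
  have h2 : Real.pi ^ (-(n + 3 / 2) : ℝ) = (Real.pi ^ (n + 1))⁻¹ * Real.pi ^ (-(1 / 2) : ℝ) := by
    rw [show (-(n + 3 / 2) : ℝ) = -((n + 1 : ℕ) : ℝ) + -(1 / 2) by push_cast; ring,
      Real.rpow_add Real.pi_pos, Real.rpow_neg Real.pi_pos.le ((n + 1 : ℕ) : ℝ), Real.rpow_natCast]
  have h3 : (1 / 2 : ℝ) ≤ Real.pi ^ (-(1 / 2) : ℝ) := by
    rw [Real.rpow_neg Real.pi_pos.le, ← Real.sqrt_eq_rpow, one_div]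
    refine inv_anti₀ (Real.sqrt_pos.mpr Real.pi_pos) ?_
    rw [Real.sqrt_le_left (by norm_num)]
    linarith
  have h4 : (2 : ℝ) ≤ Real.exp n := by
    have := Real.add_one_le_exp (n : ℝ)
    linarith
  have h5 : Real.exp ((B + 1) * n) = Real.exp (B * n) * Real.exp n := by
    rw [← Real.exp_add]
    congr 1
    ring
  rw [h5] at hn
  have h6 : 0 ≤ Real.exp (B * n) := Real.exp_nonneg _
  have h7 : (0 : ℝ) ≤ (Real.pi ^ (n + 1))⁻¹ := by positivity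
  calc Real.exp (B * n) ≤ Real.exp (B * n) * Real.exp n * (1 / 2) := by nlinarith
    _ ≤ (Real.pi ^ (n + 1))⁻¹ * n.factorial * Real.pi ^ (-(1 / 2) : ℝ) := by
        gcongr
    _ = (Real.pi ^ (n + 1))⁻¹ * Real.pi ^ (-(1 / 2) : ℝ) * n.factorial := by ring
    _ ≤ (Real.pi ^ (n + 1))⁻¹ * Real.pi ^ (-(1 / 2) : ℝ) * Real.Gamma (n + 3 / 2) := by
        gcongr
    _ = _ := by rw [h2]

theorem card_le (S : Finset (RP K)) : S.card ≤ nrRealPlaces K :=
  (Finset.card_le_univ S).trans (le_of_eq rfl)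

theorem eventually_exp_le_gamS (S : Finset (RP K)) {B : ℝ} (hB : 0 ≤ B) :
    ∀ᶠ n : ℕ in atTop, Real.exp (B * n) ≤ ‖gamS K S ((2 * n + 2 : ℝ) : ℂ)‖ := by
  filter_upwards [eventually_exp_le_Gammaℝ B, eventually_exp_le_Gammaℝ_odd B,
    eventually_exp_le_Gammaℂ B] with n h1 h2 h3
  rw [gamS, norm_mul, norm_mul, norm_pow, norm_pow, norm_pow]
  have h4 := rank_add_one (K := K)
  have h5 : (1 : ℝ) ≤ Real.exp (B * n) := Real.one_le_exp (by positivity)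
  have h6 := card_le S
  calc Real.exp (B * n) = Real.exp (B * n) ^ 1 := (pow_one _).symm
    _ ≤ Real.exp (B * n) ^ ((nrRealPlaces K - S.card) + S.card + nrComplexPlaces K) :=
        pow_le_pow_right₀ h5 (by omega)
    _ = Real.exp (B * n) ^ (nrRealPlaces K - S.card) * Real.exp (B * n) ^ S.card *
          Real.exp (B * n) ^ nrComplexPlaces K := by rw [pow_add, pow_add]
    _ ≤ _ := by gcongr

/-- **Lower bound** on the positive real axis. -/
theorem exists_lt_norm_L (hm : m ≠ ⊥) (h : NRayChar m ψ) {Λ : ℂ → ℂ}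
    (h1 : ∀ s : ℂ, 1 < s.re → Λ s = (DC m : ℂ) ^ (s / 2) * gamS K S s * Ray.Ls ψ s) (B : ℝ) :
    ∃ x : ℝ, 0 ≤ x ∧ Real.exp (B * (1 + x)) < ‖(x : ℂ) * (1 - x) * Λ x‖ := by
  set B₀ : ℝ := max B 0 with hB₀
  have hB0 : 0 ≤ B₀ := le_max_right _ _
  have g1 := eventually_exp_le_gamS S (B := 5 * B₀ + 1) (by positivity)
  have g2 := ((tendsto_Ls h).norm).eventually_const_lt (u := 1 / 2) (by rw [norm_one]; norm_num)
  obtain ⟨n, g1, g2, g4⟩ := (g1.and (g2.and (eventually_ge_atTop 2))).exists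
  have hn : (2 : ℝ) ≤ n := by exact_mod_cast g4
  refine ⟨2 * n + 2, by positivity, ?_⟩
  have hre : 1 < (((2 * n + 2 : ℝ) : ℂ)).re := by
    rw [Complex.ofReal_re]
    linarith
  rw [h1 _ hre, norm_mul, norm_mul, norm_mul, norm_mul]
  have e1 : (1 : ℝ) ≤ ‖((2 * n + 2 : ℝ) : ℂ)‖ := by
    rw [Complex.norm_real, Real.norm_eq_abs, abs_of_nonneg (by positivity)]
    linarith
  have e2 : (1 : ℝ) ≤ ‖1 - ((2 * n + 2 : ℝ) : ℂ)‖ := by
    rw [← Complex.ofReal_one, ← Complex.ofReal_sub, Complex.norm_real, Real.norm_eq_abs,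
      abs_sub_comm, abs_of_nonneg (by linarith)]
    linarith
  have e3 : (1 : ℝ) ≤ ‖(DC m : ℂ) ^ (((2 * n + 2 : ℝ) : ℂ) / 2)‖ := by
    rw [Complex.norm_cpow_eq_rpow_re_of_pos (DC_pos hm)]
    refine Real.one_le_rpow (one_le_DC hm) ?_
    rw [re_half, Complex.ofReal_re]
    positivity
  have e4 : Real.exp (B * (1 + (2 * n + 2))) ≤ Real.exp (5 * B₀ * n) := by
    refine Real.exp_le_exp.mpr ?_
    have h5 : B * (1 + (2 * n + 2 : ℝ)) ≤ B₀ * (1 + (2 * n + 2)) :=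
      mul_le_mul_of_nonneg_right (le_max_left _ _) (by positivity)
    nlinarith
  have e5 : Real.exp ((5 * B₀ + 1) * n) = Real.exp (5 * B₀ * n) * Real.exp n := by
    rw [← Real.exp_add]
    congr 1
    ring
  rw [e5] at g1
  have e6 : 1 < Real.exp n * (1 / 2) := by
    have := Real.add_one_le_exp (n : ℝ)
    linarith
  have e7 := Real.exp_pos (5 * B₀ * n)
  calc Real.exp (B * (1 + (2 * n + 2))) ≤ Real.exp (5 * B₀ * n) := e4
    _ < Real.exp (5 * B₀ * n) * (Real.exp n * (1 / 2)) := lt_mul_of_one_lt_right e7 e6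
    _ = (1 * 1) * (1 * (Real.exp (5 * B₀ * n) * Real.exp n) * (1 / 2)) := by ring
    _ ≤ _ := by gcongr

end Fermat.Agent.Cor.RayF

end
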