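import Fermat.Agent.Corollaries.RayF.Strip
import Fermat.Agent.Corollaries.ZetaK.GammaOrd

/-!
# The zeros of the Hecke `L`-functions

`ψ` a non-trivial primitive narrow ray class character of infinity type `S`, `L(s, ψ)` its entire
`L`-function:

* `infinite_zeros_L`: **`L(s, ψ)` has infinitely many zeros with `0 < Re s < 1`**;
* `analyticOrderAt_L`: its zeros with `Re s ≤ 0` are `0, -2, -4, …` of order `r₁ - |S| + r₂` and
  `-1, -3, …` of order `|S| + r₂`, with multiplicities;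
* `analyticOrderAt_L_zero`: **the order of vanishing at `s = 0` is `r₁ - |S| + r₂`**, the number of
  the infinite places at which `ψ` is unramified.
-/

set_option autoImplicit false
set_option linter.unusedSectionVars false

noncomputable section

namespace Fermat.Agent.Cor.RayF

open NumberField NumberField.InfinitePlace NumberField.Units MeasureTheory Set Filter Topology
open Fermat.Agent.Classic.Zeta Fermat.Agent.Cor.Ray Fermat.Agent.Cor.RayN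
open Fermat.Agent.Cor.ZetaK
open scoped nonZeroDivisors ComplexConjugate Classical

universe u

variable {K : Type u} [Field K] [NumberField K] {S : Finset (RP K)} {m : Ideal (𝓞 K)}
  {ψ : (Ideal (𝓞 K))⁰ →* ℂ}

/-! ### The Gamma factor -/

theorem analyticOrderAt_inv_Gammaℝ_add_one (s : ℂ) :
    analyticOrderAt (fun z : ℂ => (Complex.Gammaℝ (z + 1))⁻¹) s =
      if ∃ k : ℕ, s = -(2 * k + 1) then 1 else 0 := by
  have h := analyticOrderAt_comp_of_deriv_ne_zero (f := fun z : ℂ => (Complex.Gammaℝ z)⁻¹)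
    (g := fun z : ℂ => z + 1) (z₀ := s) (by fun_prop) (by simp)
  have h1 : analyticOrderAt (fun z : ℂ => (Complex.Gammaℝ (z + 1))⁻¹) s =
      analyticOrderAt (fun z : ℂ => (Complex.Gammaℝ z)⁻¹) (s + 1) := h
  rw [h1, ZetaK.analyticOrderAt_inv_Gammaℝ]
  refine if_congr (exists_congr fun k => ⟨fun h => ?_, fun h => ?_⟩) rfl rfl
  · linear_combination h
  · linear_combination h

/-- **the order of the inverse of the Gamma factor** -/
theorem analyticOrderAt_gSi (S : Finset (RP K)) (s : ℂ) : analyticOrderAt (gSi S) s =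
    (nrRealPlaces K - S.card) • (if ∃ k : ℕ, s = -(2 * k) then (1 : ℕ∞) else 0) +
      S.card • (if ∃ k : ℕ, s = -(2 * k + 1) then (1 : ℕ∞) else 0) +
      nrComplexPlaces K • (if ∃ k : ℕ, s = -k then (1 : ℕ∞) else 0) := by
  have h : gSi S = fun s => (Complex.Gammaℝ s)⁻¹ ^ (nrRealPlaces K - S.card) *
      (Complex.Gammaℝ (s + 1))⁻¹ ^ S.card * (Complex.Gammaℂ s)⁻¹ ^ nrComplexPlaces K := by
    funext s
    rw [gSi, gamS, mul_inv, mul_inv, inv_pow, inv_pow, inv_pow]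
  have a1 : AnalyticAt ℂ (fun z : ℂ => (Complex.Gammaℝ z)⁻¹) s := analyticAt_inv_Gammaℝ s
  have a2 : AnalyticAt ℂ (fun z : ℂ => (Complex.Gammaℝ (z + 1))⁻¹) s :=
    (Complex.differentiable_Gammaℝ_inv.comp (differentiable_id.add_const 1)).analyticAt s
  have a3 : AnalyticAt ℂ (fun z : ℂ => (Complex.Gammaℂ z)⁻¹) s := analyticAt_inv_Gammaℂ s
  have b1 : AnalyticAt ℂ (fun z : ℂ => (Complex.Gammaℝ z)⁻¹ ^ (nrRealPlaces K - S.card)) s :=
    a1.pow _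
  have b2 : AnalyticAt ℂ (fun z : ℂ => (Complex.Gammaℝ (z + 1))⁻¹ ^ S.card) s := a2.pow _
  have b3 : AnalyticAt ℂ (fun z : ℂ => (Complex.Gammaℂ z)⁻¹ ^ nrComplexPlaces K) s := a3.pow _
  have b4 : AnalyticAt ℂ (fun z : ℂ => (Complex.Gammaℝ z)⁻¹ ^ (nrRealPlaces K - S.card) *
      (Complex.Gammaℝ (z + 1))⁻¹ ^ S.card) s := b1.mul b2
  rw [h, ord_mul b4 b3, ord_mul b1 b2, ord_pow a1, ord_pow a2, ord_pow a3,
    ZetaK.analyticOrderAt_inv_Gammaℝ, analyticOrderAt_inv_Gammaℝ_add_one,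
    ZetaK.analyticOrderAt_inv_Gammaℂ]

/-! ### The zeros -/

theorem eq_of_re_gt {f g : ℂ → ℂ} (hf : Differentiable ℂ f) (hg : Differentiable ℂ g)
    (h : ∀ s : ℂ, 1 < s.re → f s = g s) : f = g := by
  refine AnalyticOnNhd.eq_of_eventuallyEq (𝕜 := ℂ) (z₀ := 2)
    (hf.differentiableOn.analyticOnNhd isOpen_univ)
    (hg.differentiableOn.analyticOnNhd isOpen_univ) ?_
  have hU : {s : ℂ | 1 < s.re} ∈ nhds (2 : ℂ) :=
    (isOpen_lt continuous_const Complex.continuous_re).mem_nhds (by norm_num)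
  filter_upwards [hU] with s hs
  exact h s hs

/-- **The zeros of the Hecke `L`-functions.** -/
theorem zeros_L (hm : m ≠ ⊥) (h : NRayChar m ψ) (hS : HasS m ψ S) (hp : IsPrimC m ψ)
    (hq : ∃ I : (Ideal (𝓞 K))⁰, IsCoprime (I : Ideal (𝓞 K)) m ∧ ψ I ≠ 1) {L : ℂ → ℂ}
    (hL : Differentiable ℂ L) (hLs : ∀ s : ℂ, 1 < s.re → L s = Ray.Ls ψ s) :
    (∀ s : ℂ, 1 ≤ s.re → L s ≠ 0) ∧
      (∀ s : ℂ, s.re ≤ 0 → analyticOrderAt L s = analyticOrderAt (gSi S) s) ∧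
      {s : ℂ | 0 < s.re ∧ s.re < 1 ∧ L s = 0}.Infinite := by
  obtain ⟨τ, hτ⟩ := gaussStmt K S m ψ ⟨hm, h, hS⟩ hp
  obtain ⟨-, hW, Λ, hΛ, h1', hfe⟩ :=
    funEq_of_gauss (feStmt K) glueStmt (nonVanNStmt K) hm h hS hτ hq
  have h1 : ∀ s : ℂ, 1 < s.re → Λ s = (DC m : ℂ) ^ (s / 2) * gamS K S s * Ray.Ls ψ s := h1'
  obtain ⟨L₀, hL₀, hL₀s, hL₀1⟩ := nonVanNStmt K m hm ψ h hq
  have hLL : L = L₀ := eq_of_re_gt hL hL₀ fun s hs => by rw [hLs s hs, hL₀s s hs]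
  have hL1 : ∀ s : ℂ, 1 ≤ s.re → L s ≠ 0 := by
    rw [hLL]
    exact hL₀1
  have hD0 : (DC m : ℂ) ≠ 0 := Complex.ofReal_ne_zero.mpr (DC_pos hm).ne'
  have hDs : ∀ z : ℂ, (DC m : ℂ) ^ z ≠ 0 := ofReal_cpow_ne_zero (DC_pos hm)
  have hDd : Differentiable ℂ fun s : ℂ => (DC m : ℂ) ^ (s / 2) :=
    (differentiable_id.div_const 2).const_cpow (Or.inl hD0)
  have key : (fun s => gSi S s * Λ s) = fun s => (DC m : ℂ) ^ (s / 2) * L s := by
    refine eq_of_re_gt ((differentiable_gSi S).mul hΛ) (hDd.mul hL) fun s hs => ?_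
    have hg : gamS K S s ≠ 0 := gamS_ne_zero S (by linarith)
    change gSi S s * Λ s = (DC m : ℂ) ^ (s / 2) * L s
    rw [h1 s hs, hLs s hs, gSi]
    field_simp
  have key' : ∀ s, gSi S s * Λ s = (DC m : ℂ) ^ (s / 2) * L s := fun s => congrFun key s
  have hΛ1 : ∀ s : ℂ, 1 ≤ s.re → Λ s ≠ 0 := by
    intro s hs h0
    have h2 := key' s
    rw [h0, mul_zero] at h2
    exact mul_ne_zero (hDs _) (hL1 s hs) h2.symm
  have hΛ0 : ∀ s : ℂ, s.re ≤ 0 → Λ s ≠ 0 := by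
    intro s hs h0
    have h2 := hfe s
    rw [h0] at h2
    have h3 : Λ (1 - conj s) ≠ 0 := hΛ1 _ (by
      rw [Complex.sub_re, Complex.one_re, Complex.conj_re]
      linarith)
    have h4 : rootN S m τ ≠ 0 := by
      rw [← norm_ne_zero_iff, hW]
      exact one_ne_zero
    exact mul_ne_zero h4 ((map_ne_zero _).mpr h3) h2.symm
  refine ⟨hL1, fun s hs => ?_, ?_⟩
  · have e1 : analyticOrderAt (fun s => gSi S s * Λ s) s = analyticOrderAt (gSi S) s := by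
      rw [ord_mul ((differentiable_gSi S).analyticAt s) (hΛ.analyticAt s),
        ord_eq_zero (hΛ.analyticAt s) (hΛ0 s hs), add_zero]
    rw [← e1, key, ord_mul (hDd.analyticAt s) (hL.analyticAt s),
      ord_eq_zero (hDd.analyticAt s) (hDs _), zero_add]
  · have h2 : {s : ℂ | s * (1 - s) * Λ s = 0}.Infinite :=
      infinite_zeros_of_growth (by fun_prop) (hasGrowth_L hm h hS hΛ hW h1 hfe)
        (exists_lt_norm_L hm h h1)
    refine (h2.sdiff (Set.toFinite ({0, 1} : Set ℂ))).mono fun s hs => ?_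
    obtain ⟨hs1, hs2⟩ := hs
    rw [Set.mem_insert_iff, Set.mem_singleton_iff, not_or] at hs2
    have h3 : Λ s = 0 := by
      rcases mul_eq_zero.mp (show s * (1 - s) * Λ s = 0 from hs1) with h3 | h3
      · rcases mul_eq_zero.mp h3 with h4 | h4
        · exact absurd h4 hs2.1
        · exact absurd (sub_eq_zero.mp h4).symm hs2.2
      · exact h3
    refine ⟨?_, ?_, ?_⟩
    · by_contra hcon
      exact hΛ0 s (not_lt.mp hcon) h3
    · by_contra hcon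
      exact hΛ1 s (not_lt.mp hcon) h3
    · have h4 := key' s
      rw [h3, mul_zero] at h4
      exact (mul_eq_zero.mp h4.symm).resolve_left (hDs _)

/-- **The order of the zeros with `Re s ≤ 0`.** -/
theorem analyticOrderAt_L (hm : m ≠ ⊥) (h : NRayChar m ψ) (hS : HasS m ψ S) (hp : IsPrimC m ψ)
    (hq : ∃ I : (Ideal (𝓞 K))⁰, IsCoprime (I : Ideal (𝓞 K)) m ∧ ψ I ≠ 1) {L : ℂ → ℂ}
    (hL : Differentiable ℂ L) (hLs : ∀ s : ℂ, 1 < s.re → L s = Ray.Ls ψ s) {s : ℂ}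
    (hs : s.re ≤ 0) : analyticOrderAt L s =
      (nrRealPlaces K - S.card) • (if ∃ k : ℕ, s = -(2 * k) then (1 : ℕ∞) else 0) +
        S.card • (if ∃ k : ℕ, s = -(2 * k + 1) then (1 : ℕ∞) else 0) +
        nrComplexPlaces K • (if ∃ k : ℕ, s = -k then (1 : ℕ∞) else 0) := by
  rw [(zeros_L hm h hS hp hq hL hLs).2.1 s hs, analyticOrderAt_gSi]

/-- **The order of vanishing at `s = 0`** is the number of infinite places at which `ψ` is
unramified. -/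
theorem analyticOrderAt_L_zero (hm : m ≠ ⊥) (h : NRayChar m ψ) (hS : HasS m ψ S)
    (hp : IsPrimC m ψ) (hq : ∃ I : (Ideal (𝓞 K))⁰, IsCoprime (I : Ideal (𝓞 K)) m ∧ ψ I ≠ 1)
    {L : ℂ → ℂ} (hL : Differentiable ℂ L) (hLs : ∀ s : ℂ, 1 < s.re → L s = Ray.Ls ψ s) :
    analyticOrderAt L 0 = ((nrRealPlaces K - S.card + nrComplexPlaces K : ℕ) : ℕ∞) := by
  have h1 : ∃ k : ℕ, (0 : ℂ) = -(2 * k) := ⟨0, by simp⟩
  have h2 : ¬ ∃ k : ℕ, (0 : ℂ) = -(2 * k + 1) := by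
    rintro ⟨k, hk⟩
    have h3 : ((2 * k + 1 : ℕ) : ℂ) = 0 := by
      push_cast
      linear_combination hk
    rw [Nat.cast_eq_zero] at h3
    omega
  have h3 : ∃ k : ℕ, (0 : ℂ) = -k := ⟨0, by simp⟩
  rw [analyticOrderAt_L hm h hS hp hq hL hLs (le_of_eq Complex.zero_re), if_pos h1, if_neg h2,
    if_pos h3, smul_zero, add_zero, nsmul_one, nsmul_one]
  push_cast
  rfl

/-- **Infinitely many zeros in the critical strip.** -/
theorem infinite_zeros_L (hm : m ≠ ⊥) (h : NRayChar m ψ) (hp : IsPrimC m ψ)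
    (hq : ∃ I : (Ideal (𝓞 K))⁰, IsCoprime (I : Ideal (𝓞 K)) m ∧ ψ I ≠ 1) {L : ℂ → ℂ}
    (hL : Differentiable ℂ L) (hLs : ∀ s : ℂ, 1 < s.re → L s = Ray.Ls ψ s) :
    {s : ℂ | 0 < s.re ∧ s.re < 1 ∧ L s = 0}.Infinite := by
  obtain ⟨S, hS⟩ := h.exists_S hm
  exact (zeros_L hm h hS hp hq hL hLs).2.2

/-- the primitivity condition with ideals -/
theorem isPrimC_of (h4 : ∀ 𝔫 : Ideal (𝓞 K), m ≤ 𝔫 → 𝔫 ≠ m → ∃ (I : (Ideal (𝓞 K))⁰) (a : 𝓞 K),
      (I : Ideal (𝓞 K)) = Ideal.span {a} ∧ IsCoprime (I : Ideal (𝓞 K)) m ∧ a - 1 ∈ 𝔫 ∧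
      (∀ w : {w : InfinitePlace K // w.IsReal}, 0 < embedding_of_isReal w.2 (a : K)) ∧ ψ I ≠ 1) :
    IsPrimC m ψ := by
  intro 𝔫 h6 h7
  obtain ⟨I, a, hI, hc, ha, hw, hψ⟩ := h4 𝔫 h6 h7
  have ha0 : a ≠ 0 := by
    rintro rfl
    rw [Ideal.span_singleton_eq_bot.mpr rfl] at hI
    exact nonZeroDivisors.coe_ne_zero I hI
  refine ⟨a, ha0, ?_, ha, hw, ?_⟩
  · rw [← hI]
    exact hc
  · have h8 : sp a ha0 = I := Subtype.ext hI.symm
    rwa [h8]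

/-- **The zeros of the Hecke `L`-functions, all definitions unfolded.** `ψ` is a primitive
non-trivial narrow ray class character modulo `𝔪`, `L` the entire function with
`L(s) = ∑ ψ(I) N(I)^{-s}` for `Re s > 1`. It has infinitely many zeros with `0 < Re s < 1`; there is
`n ≤ r₁` such that its zeros with `Re s ≤ 0` are `0, -2, -4, …` with the order `r₁ - n + r₂` and
`-1, -3, …` with the order `n + r₂`. -/
theorem hecke_zeros {𝔪 : Ideal (𝓞 K)} (hm : 𝔪 ≠ ⊥) (h1 : ∀ I, ‖ψ I‖ ≤ 1)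
    (h2 : ∀ I : (Ideal (𝓞 K))⁰, ¬ IsCoprime (I : Ideal (𝓞 K)) 𝔪 → ψ I = 0)
    (h3 : ∀ (I : (Ideal (𝓞 K))⁰) (a : 𝓞 K), (I : Ideal (𝓞 K)) = Ideal.span {a} → a - 1 ∈ 𝔪 →
      (∀ w : {w : InfinitePlace K // w.IsReal}, 0 < embedding_of_isReal w.2 (a : K)) → ψ I = 1)
    (h4 : ∀ 𝔫 : Ideal (𝓞 K), 𝔪 ≤ 𝔫 → 𝔫 ≠ 𝔪 → ∃ (I : (Ideal (𝓞 K))⁰) (a : 𝓞 K),
      (I : Ideal (𝓞 K)) = Ideal.span {a} ∧ IsCoprime (I : Ideal (𝓞 K)) 𝔪 ∧ a - 1 ∈ 𝔫 ∧
      (∀ w : {w : InfinitePlace K // w.IsReal}, 0 < embedding_of_isReal w.2 (a : K)) ∧ ψ I ≠ 1)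
    (h5 : ∃ I : (Ideal (𝓞 K))⁰, IsCoprime (I : Ideal (𝓞 K)) 𝔪 ∧ ψ I ≠ 1) {L : ℂ → ℂ}
    (hL : Differentiable ℂ L) (hLs : ∀ s : ℂ, 1 < s.re →
      L s = ∑' I : (Ideal (𝓞 K))⁰, ψ I * (Ideal.absNorm (I : Ideal (𝓞 K)) : ℂ) ^ (-s)) :
    {s : ℂ | 0 < s.re ∧ s.re < 1 ∧ L s = 0}.Infinite ∧ ∃ n : ℕ, n ≤ nrRealPlaces K ∧
      (∀ k : ℕ, analyticOrderAt L (-(2 * k)) = ((nrRealPlaces K - n + nrComplexPlaces K : ℕ) : ℕ∞)) ∧
      (∀ k : ℕ, analyticOrderAt L (-(2 * k + 1)) = ((n + nrComplexPlaces K : ℕ) : ℕ∞)) ∧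
      ∀ s : ℂ, s.re ≤ 0 → (∀ k : ℕ, s ≠ -k) → L s ≠ 0 := by
  have h : NRayChar 𝔪 ψ := ⟨h1, h2, h3⟩
  have hp : IsPrimC 𝔪 ψ := isPrimC_of h4
  obtain ⟨S, hS⟩ := h.exists_S hm
  have hno : ∀ j k : ℕ, (-(2 * j) : ℂ) ≠ -(2 * k + 1) := by
    intro j k hjk
    have h6 : ((2 * j : ℕ) : ℂ) = ((2 * k + 1 : ℕ) : ℂ) := by
      push_cast
      linear_combination -hjk
    rw [Nat.cast_inj] at h6
    omega
  refine ⟨infinite_zeros_L hm h hp h5 hL hLs, S.card, card_le S, fun k => ?_, fun k => ?_,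
    fun s hs hk => ?_⟩
  · have e1 : (-(2 * (k : ℂ))).re ≤ 0 := by
      rw [show (-(2 * (k : ℂ))) = ((-(2 * k : ℝ) : ℝ) : ℂ) by push_cast; rfl, Complex.ofReal_re]
      have : (0 : ℝ) ≤ k := Nat.cast_nonneg k
      linarith
    rw [analyticOrderAt_L hm h hS hp h5 hL hLs e1, if_pos ⟨k, rfl⟩,
      if_neg (fun ⟨j, hj⟩ => hno k j hj), if_pos ⟨2 * k, by push_cast; rfl⟩, smul_zero, add_zero,
      nsmul_one, nsmul_one]
    push_cast
    rfl
  · have e1 : (-(2 * (k : ℂ) + 1)).re ≤ 0 := by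
      rw [show (-(2 * (k : ℂ) + 1)) = ((-(2 * k + 1 : ℝ) : ℝ) : ℂ) by push_cast; rfl,
        Complex.ofReal_re]
      have : (0 : ℝ) ≤ k := Nat.cast_nonneg k
      linarith
    rw [analyticOrderAt_L hm h hS hp h5 hL hLs e1, if_neg (fun ⟨j, hj⟩ => hno j k hj.symm),
      if_pos ⟨k, rfl⟩, if_pos ⟨2 * k + 1, by push_cast; rfl⟩, smul_zero, zero_add,
      nsmul_one, nsmul_one]
    push_cast
    rfl
  · have e1 := analyticOrderAt_L hm h hS hp h5 hL hLs hs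
    rw [if_neg (fun ⟨k, hj⟩ => hk (2 * k) (by rw [hj]; push_cast; rfl)),
      if_neg (fun ⟨k, hj⟩ => hk (2 * k + 1) (by rw [hj]; push_cast; rfl)),
      if_neg (fun ⟨k, hj⟩ => hk k hj), smul_zero, smul_zero, smul_zero, add_zero, add_zero,
      (hL.analyticAt s).analyticOrderAt_eq_zero] at e1
    exact e1

end Fermat.Agent.Cor.RayF

end
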