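import Fermat.Agent.Corollaries.RayF.Zeros
import Fermat.Agent.Corollaries.RayF.Every
import Fermat.Agent.Corollaries.ZetaK.InfZeros

/-!
# Infinitely many zeros: every Hecke `L`-function of finite order

`ψ` any narrow ray class character modulo `𝔪` of a number field, primitive or not, trivial or not:
`L(s, ψ)` has infinitely many zeros with `0 < Re s < 1`.
-/

set_option autoImplicit false
set_option linter.unusedSectionVars false

noncomputable section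

namespace Fermat.Agent.Cor.RayF

open NumberField NumberField.InfinitePlace Set
open Fermat.Agent.ClassL Fermat.Agent.Classic.Zeta Fermat.Agent.Cor.Ray Fermat.Agent.Cor.RayN
open scoped nonZeroDivisors Classical

universe u

variable {K : Type u} [Field K] [NumberField K] {𝔪 : Ideal (𝓞 K)} {ψ : (Ideal (𝓞 K))⁰ →* ℂ}

/-- **Every Hecke `L`-function of finite order has infinitely many zeros in the critical strip.** -/
theorem infinite_zeros_every (hm : 𝔪 ≠ ⊥) (h : NRayChar 𝔪 ψ) {L : ℂ → ℂ}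
    (hL : ∀ s, s ≠ 1 → DifferentiableAt ℂ L s) (hLs : ∀ s : ℂ, 1 < s.re → L s = Ray.Ls ψ s) :
    {s : ℂ | 0 < s.re ∧ s.re < 1 ∧ L s = 0}.Infinite := by
  have hstrip : ∀ {g : ℂ → ℂ}, (∀ s, s ≠ 1 → DifferentiableAt ℂ g s) →
      (∀ s : ℂ, 1 < s.re → g s = Ray.Ls ψ s) → ∀ s : ℂ, 0 < s.re → s.re < 1 → L s = g s := by
    intro g hg hgs s h1 h2
    refine Glue.eq_of_eqOn (fun s _ hs => hL s hs) (fun s _ hs => hg s hs) (Glue.isOpen_re_gt 1)
      (z := 2) (by simp) (by norm_num) (by norm_num) (fun s hs => ?_) ?_ ?_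
    · rw [hLs s hs, hgs s hs]
    · rintro rfl
      simp at h1
    · rintro rfl
      simp at h2
  by_cases hq : ∃ I : (Ideal (𝓞 K))⁰, IsCoprime (I : Ideal (𝓞 K)) 𝔪 ∧ ψ I ≠ 1
  · obtain ⟨𝔣, ψ', S, τ, L₀, L', Λ, hle, hψ', hp, hag, -, -, -, hL₀, hL', -, hLs₀, hLs', -, hprod,
      -, -⟩ := functional_equation_every hm h hq
    have hf : 𝔣 ≠ ⊥ := fun h0 => hm (le_bot_iff.mp (h0 ▸ hle))
    obtain ⟨I, hI, hI1⟩ := hq
    have hq' : ∃ I : (Ideal (𝓞 K))⁰, IsCoprime (I : Ideal (𝓞 K)) 𝔣 ∧ ψ' I ≠ 1 :=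
      ⟨I, isCoprime_mono hle hI, by rwa [← hag I hI]⟩
    refine (infinite_zeros_L hf hψ' hp hq' hL' hLs').mono ?_
    rintro s ⟨h1, h2, h3⟩
    refine ⟨h1, h2, ?_⟩
    rw [hstrip (fun s _ => hL₀ s) hLs₀ s h1 h2, hprod s, h3, zero_mul]
  · push Not at hq
    refine (infinite_zeros_zetaK K).mono ?_
    rintro s ⟨h1, h2, h3⟩
    refine ⟨h1, h2, ?_⟩
    have h4 : ∀ s : ℂ, 1 < s.re → zetaK K s * Psi.badE (badPr hm) s = Ray.Ls ψ s := by
      intro s hs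
      refine (Psi.Lp_eq_badE (h.isUnitary hm) (fun P hP => ?_) (fun P hP => ?_) hs).symm
      · rw [mem_badPr] at hP
        refine h.eq_zero _ fun hc => ?_
        have h5 : (((P.1 : (Ideal (𝓞 K))⁰) : Ideal (𝓞 K)) : Ideal (𝓞 K)) = ⊤ := by
          rw [Ideal.isCoprime_iff_sup_eq, sup_eq_left.mpr (Ideal.le_of_dvd hP)] at hc
          exact hc
        exact P.2.not_isUnit (Ideal.isUnit_iff.mpr h5)
      · rw [mem_badPr] at hP
        refine hq P.1 ?_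
        rw [Ideal.isCoprime_iff_sup_eq]
        have hmax : ((P.1 : (Ideal (𝓞 K))⁰) : Ideal (𝓞 K)).IsMaximal :=
          ((Ideal.prime_iff_isPrime (nonZeroDivisors.coe_ne_zero P.1)).mp P.2).isMaximal
            (nonZeroDivisors.coe_ne_zero P.1)
        refine hmax.1.2 _ (lt_of_le_of_ne le_sup_left fun h5 => hP ?_)
        rw [Ideal.dvd_iff_le, h5]
        exact le_sup_right
    rw [hstrip (g := fun s => zetaK K s * Psi.badE (badPr hm) s)
      (fun s hs => (differentiableAt_LF (K := K) (fun _ => 1) hs).mul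
        (Psi.differentiable_badE _ s)) h4 s h1 h2]
    beta_reduce
    rw [h3, zero_mul]

/-- **Infinitely many zeros, all definitions unfolded.** `ψ` is a completely multiplicative function
on the nonzero ideals, `|ψ| ≤ 1`, zero on the ideals not prime to `𝔪`, with `ψ((a)) = 1` for all
totally positive `a ≡ 1 mod 𝔪`; `L` is differentiable outside `s = 1` and
`L(s) = ∑ ψ(I) N(I)^{-s}` for `Re s > 1`. -/
theorem hecke_infinite_zeros (hm : 𝔪 ≠ ⊥) (h1 : ∀ I, ‖ψ I‖ ≤ 1)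
    (h2 : ∀ I : (Ideal (𝓞 K))⁰, ¬ IsCoprime (I : Ideal (𝓞 K)) 𝔪 → ψ I = 0)
    (h3 : ∀ (I : (Ideal (𝓞 K))⁰) (a : 𝓞 K), (I : Ideal (𝓞 K)) = Ideal.span {a} → a - 1 ∈ 𝔪 →
      (∀ w : {w : InfinitePlace K // w.IsReal}, 0 < embedding_of_isReal w.2 (a : K)) → ψ I = 1)
    {L : ℂ → ℂ} (hL : ∀ s, s ≠ 1 → DifferentiableAt ℂ L s) (hLs : ∀ s : ℂ, 1 < s.re →
      L s = ∑' I : (Ideal (𝓞 K))⁰, ψ I * (Ideal.absNorm (I : Ideal (𝓞 K)) : ℂ) ^ (-s)) :
    {s : ℂ | 0 < s.re ∧ s.re < 1 ∧ L s = 0}.Infinite :=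
  infinite_zeros_every hm ⟨h1, h2, h3⟩ hL hLs

/-- such an `L` always exists -/
theorem exists_continuation (hm : 𝔪 ≠ ⊥) (h : NRayChar 𝔪 ψ) : ∃ L : ℂ → ℂ,
    (∀ s, s ≠ 1 → DifferentiableAt ℂ L s) ∧ ∀ s : ℂ, 1 < s.re → L s = Ray.Ls ψ s := by
  by_cases hq : ∃ I : (Ideal (𝓞 K))⁰, IsCoprime (I : Ideal (𝓞 K)) 𝔪 ∧ ψ I ≠ 1
  · obtain ⟨L, hL, hLs, -⟩ := nonVanNStmt K 𝔪 hm ψ h hq
    exact ⟨L, fun s _ => hL s, hLs⟩
  · push Not at hq
    refine ⟨fun s => zetaK K s * Psi.badE (badPr hm) s,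
      fun s hs => (differentiableAt_LF (K := K) (fun _ => 1) hs).mul
        (Psi.differentiable_badE _ s), fun s hs => ?_⟩
    refine (Psi.Lp_eq_badE (h.isUnitary hm) (fun P hP => ?_) (fun P hP => ?_) hs).symm
    · rw [mem_badPr] at hP
      refine h.eq_zero _ fun hc => ?_
      have h5 : (((P.1 : (Ideal (𝓞 K))⁰) : Ideal (𝓞 K)) : Ideal (𝓞 K)) = ⊤ := by
        rw [Ideal.isCoprime_iff_sup_eq, sup_eq_left.mpr (Ideal.le_of_dvd hP)] at hc
        exact hc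
      exact P.2.not_isUnit (Ideal.isUnit_iff.mpr h5)
    · rw [mem_badPr] at hP
      refine hq P.1 ?_
      rw [Ideal.isCoprime_iff_sup_eq]
      have hmax : ((P.1 : (Ideal (𝓞 K))⁰) : Ideal (𝓞 K)).IsMaximal :=
        ((Ideal.prime_iff_isPrime (nonZeroDivisors.coe_ne_zero P.1)).mp P.2).isMaximal
          (nonZeroDivisors.coe_ne_zero P.1)
      refine hmax.1.2 _ (lt_of_le_of_ne le_sup_left fun h5 => hP ?_)
      rw [Ideal.dvd_iff_le, h5]
      exact le_sup_right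

end Fermat.Agent.Cor.RayF

end
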